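/-
S19, algebra side (helper107): definitions for an abstract finite Galois module `X`.
`O = maxOrder`, `H = hopfOrder` = the largest `O`-subcomodule of `O` (route note, section 1, in the
comodule form: no iterated tensors are needed).
-/
import Fermat.Agent.S19.Defs

set_option autoImplicit false

namespace Fermat.Agent.S19

noncomputable section

variable (X : Type) [AddCommGroup X] [DistribMulAction GQ X]

/-- Galois-equivariant functions `X → Qbar` (the finite etale `ℚ`-algebra `A_X`). -/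
def GalEquivariant (f : X → Qbar) : Prop := ∀ (σ : GQ) (x : X), f (σ • x) = σ (f x)

/-- Functions equivariant for the inertia group of `A`. -/
def InertiaEquivariantFun (A : ValuationSubring Qbar) (f : X → Qbar) : Prop :=
  ∀ σ ∈ A.inertiaSubgroupIn ℚ, ∀ x : X, f (σ • x) = σ (f x)

/-- The ring `Rur` of elements of `A` fixed by the inertia group of `A`. -/
def Rur (A : ValuationSubring Qbar) : Subring Qbar where
  carrier := {a | a ∈ A ∧ ∀ σ ∈ A.inertiaSubgroupIn ℚ, σ a = a}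
  mul_mem' := fun {a b} ha hb => ⟨A.mul_mem _ _ ha.1 hb.1, fun σ hσ => by
    rw [map_mul, ha.2 σ hσ, hb.2 σ hσ]⟩
  one_mem' := ⟨A.one_mem, fun σ _ => map_one σ⟩
  add_mem' := fun {a b} ha hb => ⟨A.add_mem _ _ ha.1 hb.1, fun σ hσ => by
    rw [map_add, ha.2 σ hσ, hb.2 σ hσ]⟩
  zero_mem' := ⟨A.zero_mem, fun σ _ => map_zero σ⟩
  neg_mem' := fun {a} ha => ⟨A.neg_mem _ ha.1, fun σ hσ => by rw [map_neg, ha.2 σ hσ]⟩

/-- The maximal order `O` at `A`: Galois-equivariant functions with values in `A`. -/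
def maxOrder (A : ValuationSubring Qbar) : Set (X → Qbar) :=
  {f | GalEquivariant X f ∧ ∀ x, f x ∈ A}

/-- `f (x + y) = ∑ j, g j x * h j y` with `g j ∈ S` and `h j ∈ T`
(the comultiplication of `f` lies in `S ⊗ T`). -/
def ComulIn (S T : Set (X → Qbar)) (f : X → Qbar) : Prop :=
  ∃ (n : ℕ) (g h : Fin n → X → Qbar), (∀ j, g j ∈ S) ∧ (∀ j, h j ∈ T) ∧
    ∀ x y : X, f (x + y) = ∑ j, g j x * h j y

/-- `Y` is an `O`-subcomodule of `O`. -/
def IsOrderComodule (ℓ : ℕ) (A : ValuationSubring Qbar) (Y : Submodule (Zl ℓ) (X → Qbar)) : Prop :=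
  (∀ f ∈ Y, f ∈ maxOrder X A) ∧ ∀ f ∈ Y, ComulIn X (maxOrder X A) (Y : Set (X → Qbar)) f

/-- The Hopf order `H`: the largest `O`-subcomodule of `O`. -/
def hopfOrder (ℓ : ℕ) (A : ValuationSubring Qbar) : Submodule (Zl ℓ) (X → Qbar) :=
  sSup {Y | IsOrderComodule X ℓ A Y}

/-- Every point of `X` is defined over a number field. -/
def DiscreteActionOn : Prop :=
  ∀ x : X, ∃ K : IntermediateField ℚ Qbar, FiniteDimensional ℚ K ∧
    ∀ σ : GQ, (∀ a ∈ K, σ a = a) → σ • x = x

/-- The geometric core for an abstract Galois module (see `CoalgLattice`). -/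
structure CoalgLatticeOn (A : ValuationSubring Qbar) (N : Set (X → Qbar)) : Prop where
  equivariant : ∀ f ∈ N, InertiaEquivariantFun X A f
  integral : ∀ f ∈ N, ∀ x, f x ∈ A
  zero_mem : (0 : X → Qbar) ∈ N
  add_mem : ∀ f ∈ N, ∀ g ∈ N, f + g ∈ N
  smul_mem : ∀ a ∈ A, (∀ σ ∈ A.inertiaSubgroupIn ℚ, σ a = a) → ∀ f ∈ N, (fun x => a * f x) ∈ N
  spanning : Submodule.span Qbar N = ⊤
  comul : ∀ f ∈ N, ComulIn X N N f

end

end Fermat.Agent.S19
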