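/-
S19, algebra side, package A1 (Galois descent for functions on a finite discrete Galois set).
FROZEN STATEMENTS (helper107 skeleton); proofs by helper5052.
* D1 (Artin): induction on the support of a `Qbar`-relation: normalise one coefficient to `1`, twist the
  relation by `σ`, subtract; the shorter relation is trivial, so the coefficients are rational (D3).
* D2 (Speiser): the span of the Galois-equivariant functions is a subalgebra; it separates points
  (orbit indicators, and for `y = ρ • x ≠ x` the function `σ • x ↦ σ a` with `a` fixed by the stabiliser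
  of `x` but not by `ρ`: infinite Galois correspondence for the open, hence closed, stabiliser);
  a point-separating subalgebra of the functions on a finite set is everything.
* D3: `InfiniteGalois.mem_range_algebraMap_iff_fixed`.
* D4, D4': ultrametric inequality and Bezout.
* D5: inverse matrix; equivariance by uniqueness of the dual family.
-/
import Fermat.Agent.S19.Alg.Basic

set_option autoImplicit false

namespace Fermat.Agent.S19

namespace Descent5052

/-- `Qbar / ℚ` is Galois (for the `ℚ`-algebra structure found by instance search). -/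
theorem isGalois_Qbar : IsGalois ℚ Qbar := by
  haveI : IsAlgClosure ℚ Qbar := AlgebraicClosure.instIsAlgClosure ℚ
  exact IsAlgClosure.isGalois ℚ Qbar

/-- In a valuation ring over `ℓ`, an integer prime to `ℓ` has valuation one. -/
theorem valuation_intCast_eq_one (ℓ : ℕ) (A : ValuationSubring Qbar)
    (hA : A.LiesOverPrime ℓ) (n : ℤ) (hn : IsCoprime n (ℓ : ℤ)) :
    A.valuation (n : Qbar) = 1 := by
  have hle : ∀ m : ℤ, A.valuation (m : Qbar) ≤ 1 := fun m =>
    (A.valuation_le_one_iff _).mpr (intCast_mem A m)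
  have hℓ : A.valuation (ℓ : Qbar) < 1 := A.mem_nonunits_iff.mp hA
  rcases (hle n).lt_or_eq with hlt | heq
  · exfalso
    obtain ⟨u, v, huv⟩ := hn
    have h1 : ((u : Qbar) * (n : Qbar) + (v : Qbar) * (ℓ : Qbar)) = 1 := by
      have := congrArg (Int.cast : ℤ → Qbar) huv
      push_cast at this
      exact this
    have h2 : A.valuation ((u : Qbar) * (n : Qbar) + (v : Qbar) * (ℓ : Qbar)) < 1 := by
      apply Valuation.map_add_lt
      · rw [map_mul]
        exact lt_of_le_of_lt (mul_le_of_le_one_left' (hle u)) hlt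
      · rw [map_mul]
        exact lt_of_le_of_lt (mul_le_of_le_one_left' (hle v)) hℓ
    rw [h1, map_one] at h2
    exact lt_irrefl _ h2
  · exact heq

theorem valuation_rat (A : ValuationSubring Qbar) (q : ℚ) :
    A.valuation (algebraMap ℚ Qbar q) * A.valuation ((q.den : ℤ) : Qbar) =
      A.valuation ((q.num : ℤ) : Qbar) := by
  rw [← map_mul]
  congr 1
  have h : (q.den : ℚ) ≠ 0 := by exact_mod_cast q.den_nz
  have h2 : q * (q.den : ℚ) = (q.num : ℚ) := Rat.mul_den_eq_num q
  have := congrArg (algebraMap ℚ Qbar) h2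
  rw [map_mul] at this
  simpa using this

end Descent5052

section

variable (X : Type) [AddCommGroup X] [DistribMulAction GQ X]

/-- D3. Galois invariants of `Qbar` are rational. -/
theorem exists_rat_of_forall_fixed (a : Qbar) (h : ∀ σ : GQ, σ a = a) :
    ∃ q : ℚ, algebraMap ℚ Qbar q = a := by
  haveI := Descent5052.isGalois_Qbar
  exact (InfiniteGalois.mem_range_algebraMap_iff_fixed a).mpr h

/-- D4. A rational number lying in a valuation ring over `ℓ` is in `ℤ_(ℓ)`. -/
theorem rat_mem_ratLocalizedAt (ℓ : ℕ) [Fact ℓ.Prime] (A : ValuationSubring Qbar)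
    (hA : A.LiesOverPrime ℓ) (q : ℚ) (h : algebraMap ℚ Qbar q ∈ A) :
    q ∈ GaloisRep.ratLocalizedAt ℓ := by
  change q.den.Coprime ℓ
  by_contra hcop
  have hℓ : ℓ.Prime := Fact.out
  have hdvd : ℓ ∣ q.den := by
    by_contra hnd
    exact hcop ((Nat.Prime.coprime_iff_not_dvd hℓ).mpr hnd).symm
  have hnum : IsCoprime (q.num) (ℓ : ℤ) := by
    rw [Int.isCoprime_iff_gcd_eq_one]
    have h1 : Nat.Coprime q.num.natAbs ℓ := Nat.Coprime.coprime_dvd_right hdvd q.reduced
    simpa [Int.gcd] using h1
  have hv1 := Descent5052.valuation_intCast_eq_one ℓ A hA q.num hnum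
  have hv2 := Descent5052.valuation_rat A q
  have hq : A.valuation (algebraMap ℚ Qbar q) ≤ 1 := (A.valuation_le_one_iff _).mpr h
  have hℓv : A.valuation (ℓ : Qbar) < 1 := A.mem_nonunits_iff.mp hA
  obtain ⟨d, hd⟩ := hdvd
  have hden : A.valuation ((q.den : ℤ) : Qbar) < 1 := by
    have : ((q.den : ℤ) : Qbar) = (d : Qbar) * (ℓ : Qbar) := by
      rw [hd]; push_cast; ring
    rw [this, map_mul]
    refine lt_of_le_of_lt (mul_le_of_le_one_left' ?_) hℓv
    exact (A.valuation_le_one_iff _).mpr (natCast_mem A d)
  rw [hv1] at hv2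
  have : A.valuation (algebraMap ℚ Qbar q) * A.valuation ((q.den : ℤ) : Qbar) < 1 :=
    lt_of_le_of_lt (mul_le_of_le_one_left' hq) hden
  rw [hv2] at this
  exact lt_irrefl _ this

/-- D4'. `ℤ_(ℓ)` is contained in every valuation ring of `Qbar` over `ℓ`. -/
theorem algebraMap_Zl_mem (ℓ : ℕ) [Fact ℓ.Prime] (A : ValuationSubring Qbar)
    (hA : A.LiesOverPrime ℓ) (r : Zl ℓ) : algebraMap (Zl ℓ) Qbar r ∈ A := by
  have hr : (r : ℚ).den.Coprime ℓ := r.2
  have hden : IsCoprime (((r : ℚ).den : ℤ)) (ℓ : ℤ) := by
    rw [Int.isCoprime_iff_gcd_eq_one]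
    simpa [Int.gcd] using hr
  have hv1 := Descent5052.valuation_intCast_eq_one ℓ A hA _ hden
  have hv2 := Descent5052.valuation_rat A (r : ℚ)
  rw [hv1, mul_one] at hv2
  have : algebraMap (Zl ℓ) Qbar r = algebraMap ℚ Qbar (r : ℚ) := rfl
  rw [this, ← A.valuation_le_one_iff, hv2]
  exact (A.valuation_le_one_iff _).mpr (intCast_mem A _)

/-- D1 (Artin). `ℚ`-linearly independent Galois-equivariant functions are `Qbar`-linearly independent. -/
theorem linearIndependent_of_galEquivariant {ι : Type} (f : ι → X → Qbar)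
    (hf : ∀ i, GalEquivariant X (f i)) (h : LinearIndependent ℚ f) :
    LinearIndependent Qbar f := by
  classical
  rw [linearIndependent_iff']
  intro s
  induction s using Finset.induction_on with
  | empty => intro g _ i hi; simp at hi
  | insert a s has ih =>
    intro g hg
    by_cases hga : g a = 0
    · rw [Finset.sum_insert has, hga, zero_smul, zero_add] at hg
      intro i hi
      rcases Finset.mem_insert.mp hi with rfl | hi
      · exact hga
      · exact ih g hg i hi
    · exfalso
      set c : ι → Qbar := fun i => g i / g a with hc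
      have hrel : ∀ x, f a x + ∑ i ∈ s, c i * f i x = 0 := by
        intro x
        have h1 := congrFun hg x
        rw [Finset.sum_insert has] at h1
        simp only [Pi.add_apply, Pi.smul_apply, Finset.sum_apply, smul_eq_mul,
          Pi.zero_apply] at h1
        have h2 : g a * (f a x + ∑ i ∈ s, c i * f i x) = 0 := by
          rw [mul_add, Finset.mul_sum, ← h1]
          congr 1
          apply Finset.sum_congr rfl
          intro i _
          simp only [hc]
          field_simp
        exact (mul_eq_zero.mp h2).resolve_left hga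
      have hfix : ∀ σ : GQ, ∀ i ∈ s, σ (c i) = c i := by
        intro σ
        have hrel' : ∀ x, f a x + ∑ i ∈ s, σ (c i) * f i x = 0 := by
          intro x
          have h1 := congrArg σ (hrel (σ⁻¹ • x))
          rw [map_add, map_sum, map_zero, ← hf a σ, smul_inv_smul] at h1
          rw [← h1]
          congr 1
          apply Finset.sum_congr rfl
          intro i _
          rw [map_mul, ← hf i σ, smul_inv_smul]
        have hdiff : ∑ i ∈ s, (σ (c i) - c i) • f i = 0 := by
          funext x
          simp only [Finset.sum_apply, Pi.smul_apply, smul_eq_mul, Pi.zero_apply, sub_mul,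
            Finset.sum_sub_distrib]
          linear_combination hrel' x - hrel x
        intro i hi
        exact sub_eq_zero.mp (ih _ hdiff i hi)
      have hrat : ∀ i, ∃ q : ℚ, i ∈ s → algebraMap ℚ Qbar q = c i := by
        intro i
        by_cases hi : i ∈ s
        · obtain ⟨q, hq⟩ := exists_rat_of_forall_fixed (c i) (fun σ => hfix σ i hi)
          exact ⟨q, fun _ => hq⟩
        · exact ⟨0, fun h => absurd h hi⟩
      choose q hq using hrat
      have hQ : ∑ i ∈ insert a s, (if i = a then (1 : ℚ) else q i) • f i = 0 := by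
        rw [Finset.sum_insert has]
        funext x
        simp only [if_true, one_smul, Pi.add_apply, Finset.sum_apply, Pi.smul_apply,
          Pi.zero_apply]
        rw [← hrel x]
        congr 1
        apply Finset.sum_congr rfl
        intro i hi
        have hia : i ≠ a := fun h => has (h ▸ hi)
        rw [if_neg hia, Algebra.smul_def, hq i hi]
      have h0 := (linearIndependent_iff'.mp h) _ _ hQ a (Finset.mem_insert_self a s)
      simp at h0

namespace Descent5052

variable {X}

/-- The Galois-equivariant functions as a submonoid. -/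
def equivSubmonoid (X : Type) [AddCommGroup X] [DistribMulAction GQ X] :
    Submonoid (X → Qbar) where
  carrier := {f | GalEquivariant X f}
  mul_mem' := fun {f g} hf hg σ x => by
    simp only [Pi.mul_apply, map_mul, hf σ x, hg σ x]
  one_mem' := fun σ x => by simp

/-- A point-separating subalgebra of the functions on a finite set is everything. -/
theorem subalgebra_eq_top_of_separates {Y : Type} [Finite Y] (S : Subalgebra Qbar (Y → Qbar))
    (hsep : ∀ x y : Y, x ≠ y → ∃ f ∈ S, f x ≠ f y) : S = ⊤ := by
  classical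
  cases nonempty_fintype Y
  -- functions `1` at `x`, `0` at `y`
  have h1 : ∀ x y : Y, x ≠ y → ∃ g ∈ S, g x = 1 ∧ g y = 0 := by
    intro x y hxy
    obtain ⟨f, hfS, hf⟩ := hsep x y hxy
    refine ⟨(f - algebraMap Qbar (Y → Qbar) (f y)) * algebraMap Qbar (Y → Qbar) ((f x - f y)⁻¹),
      S.mul_mem (S.sub_mem hfS (S.algebraMap_mem _)) (S.algebraMap_mem _), ?_, ?_⟩
    · simp only [Pi.mul_apply, Pi.sub_apply, Pi.algebraMap_apply, Algebra.algebraMap_self,
        RingHom.id_apply]
      exact mul_inv_cancel₀ (sub_ne_zero.mpr hf)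
    · simp only [Pi.mul_apply, Pi.sub_apply, Pi.algebraMap_apply, Algebra.algebraMap_self,
        RingHom.id_apply, sub_self, zero_mul]
  have h2 : ∀ x y : Y, ∃ g ∈ S, g x = 1 ∧ (x ≠ y → g y = 0) := by
    intro x y
    by_cases hxy : x = y
    · exact ⟨1, S.one_mem, rfl, fun h => absurd hxy h⟩
    · obtain ⟨g, hg, hgx, hgy⟩ := h1 x y hxy
      exact ⟨g, hg, hgx, fun _ => hgy⟩
  choose g hgS hgx hgy using h2
  have h3 : ∀ x : Y, ∃ d ∈ S, d x = 1 ∧ ∀ z, z ≠ x → d z = 0 := by
    intro x
    refine ⟨∏ y, g x y, S.prod_mem (fun y _ => hgS x y), ?_, ?_⟩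
    · rw [Finset.prod_apply]
      exact Finset.prod_eq_one (fun y _ => hgx x y)
    · intro z hz
      rw [Finset.prod_apply]
      exact Finset.prod_eq_zero (Finset.mem_univ z) (hgy x z (Ne.symm hz))
  choose d hdS hdx hdz using h3
  rw [eq_top_iff]
  intro u _
  have hu : u = ∑ x, u x • d x := by
    funext z
    rw [Finset.sum_apply, Finset.sum_eq_single z]
    · simp [hdx z]
    · intro x _ hxz
      simp [hdz x z (Ne.symm hxz)]
    · intro hz
      exact absurd (Finset.mem_univ z) hz
  rw [hu]
  exact S.sum_mem (fun x _ => S.smul_mem (hdS x) _)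

/-- An equivariant function on the orbit of `x` with prescribed value `a` at `x`, zero outside. -/
theorem exists_equivariant_on_orbit (x : X) (a : Qbar) (ha : ∀ σ : GQ, σ • x = x → σ a = a) :
    ∃ f : X → Qbar, GalEquivariant X f ∧ (∀ σ : GQ, f (σ • x) = σ a) ∧
      (∀ z, (∀ σ : GQ, σ • x ≠ z) → f z = 0) := by
  classical
  let f : X → Qbar := fun z => if h : ∃ σ : GQ, σ • x = z then (Classical.choose h) a else 0
  have key : ∀ σ : GQ, f (σ • x) = σ a := by
    intro σ
    have h : ∃ τ : GQ, τ • x = σ • x := ⟨σ, rfl⟩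
    have hspec := Classical.choose_spec h
    have hf : f (σ • x) = (Classical.choose h) a := dif_pos h
    rw [hf]
    have h1 : (σ⁻¹ * Classical.choose h) • x = x := by
      rw [mul_smul, hspec, inv_smul_smul]
    have h2 := ha _ h1
    have h3 : σ ((σ⁻¹ * Classical.choose h) a) = σ a := by rw [h2]
    rw [← h3]
    simp [AlgEquiv.mul_apply]
  have hout : ∀ z, (∀ σ : GQ, σ • x ≠ z) → f z = 0 := by
    intro z hz
    have h : ¬ ∃ σ : GQ, σ • x = z := fun ⟨σ, hσ⟩ => hz σ hσ
    exact dif_neg h
  refine ⟨f, ?_, key, hout⟩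
  intro τ z
  by_cases hz : ∃ σ : GQ, σ • x = z
  · obtain ⟨σ, rfl⟩ := hz
    rw [← mul_smul, key, key, AlgEquiv.mul_apply]
  · have hz' : ∀ σ : GQ, σ • x ≠ z := fun σ hσ => hz ⟨σ, hσ⟩
    have hz'' : ∀ σ : GQ, σ • x ≠ τ • z := by
      intro σ hσ
      apply hz' (τ⁻¹ * σ)
      rw [mul_smul, hσ, inv_smul_smul]
    rw [hout z hz', hout _ hz'', map_zero]

/-- An element fixed by the stabiliser of `x` and moved by `ρ`, if `ρ` moves `x`. -/
theorem exists_fixed_not_fixed (hdisc : DiscreteActionOn X) (x : X) (ρ : GQ) (hρ : ρ • x ≠ x) :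
    ∃ a : Qbar, (∀ σ : GQ, σ • x = x → σ a = a) ∧ ρ a ≠ a := by
  haveI := isGalois_Qbar
  obtain ⟨K, hK, hKx⟩ := hdisc x
  have hle : K.fixingSubgroup ≤ MulAction.stabilizer GQ x := by
    intro σ hσ
    rw [MulAction.mem_stabilizer_iff]
    exact hKx σ ((IntermediateField.mem_fixingSubgroup_iff K σ).mp hσ)
  have hopen : IsOpen (MulAction.stabilizer GQ x : Set GQ) :=
    Subgroup.isOpen_mono hle K.fixingSubgroup_isOpen
  have hclosed : IsClosed (MulAction.stabilizer GQ x : Set GQ) :=
    Subgroup.isClosed_of_isOpen _ hopen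
  have hfix := InfiniteGalois.fixingSubgroup_fixedField
    (k := ℚ) (K := Qbar) ⟨MulAction.stabilizer GQ x, hclosed⟩
  have hρ' : ρ ∉ (IntermediateField.fixedField (MulAction.stabilizer GQ x)).fixingSubgroup := by
    intro h
    have h2 : ρ ∈ MulAction.stabilizer GQ x := by
      have := hfix ▸ h
      exact this
    exact hρ (MulAction.mem_stabilizer_iff.mp h2)
  rw [IntermediateField.mem_fixingSubgroup_iff] at hρ'
  have hρ'' : ∃ a ∈ IntermediateField.fixedField (MulAction.stabilizer GQ x), ρ a ≠ a := by
    by_contra hcon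
    apply hρ'
    intro a ha
    by_contra hne
    exact hcon ⟨a, ha, hne⟩
  obtain ⟨a, haF, haρ⟩ := hρ''
  refine ⟨a, fun σ hσ => ?_, haρ⟩
  exact (IntermediateField.mem_fixedField_iff _ a).mp haF σ (MulAction.mem_stabilizer_iff.mpr hσ)

/-- Galois-equivariant functions separate the points of a discrete Galois set. -/
theorem exists_equivariant_separating (hdisc : DiscreteActionOn X) (x y : X) (hxy : x ≠ y) :
    ∃ f : X → Qbar, GalEquivariant X f ∧ f x ≠ f y := by
  by_cases hy : ∃ ρ : GQ, ρ • x = y
  · obtain ⟨ρ, rfl⟩ := hy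
    obtain ⟨a, ha, haρ⟩ := exists_fixed_not_fixed hdisc x ρ (fun h => hxy h.symm)
    obtain ⟨f, hf, hfx, -⟩ := exists_equivariant_on_orbit x a ha
    refine ⟨f, hf, ?_⟩
    have h1 : f x = a := by
      have := hfx 1
      simpa using this
    rw [h1, hfx ρ]
    exact fun h => haρ h.symm
  · obtain ⟨f, hf, hfx, hfo⟩ := exists_equivariant_on_orbit x (1 : Qbar) (fun σ _ => map_one σ)
    refine ⟨f, hf, ?_⟩
    have h1 : f x = 1 := by
      have := hfx 1
      simpa using this
    have h2 : f y = 0 := hfo y (fun σ hσ => hy ⟨σ, hσ⟩)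
    rw [h1, h2]
    exact one_ne_zero

end Descent5052

/-- D2 (Speiser). On a finite discrete Galois set the Galois-equivariant functions span all functions. -/
theorem span_galEquivariant_eq_top [Finite X] (hdisc : DiscreteActionOn X) :
    Submodule.span Qbar {f : X → Qbar | GalEquivariant X f} = ⊤ := by
  have h1 : Algebra.adjoin Qbar (Descent5052.equivSubmonoid X : Set (X → Qbar)) = ⊤ := by
    apply Descent5052.subalgebra_eq_top_of_separates
    intro x y hxy
    obtain ⟨f, hf, hne⟩ := Descent5052.exists_equivariant_separating hdisc x y hxy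
    exact ⟨f, Algebra.subset_adjoin hf, hne⟩
  have h2 := Algebra.adjoin_eq_span (R := Qbar) (s := (Descent5052.equivSubmonoid X : Set (X → Qbar)))
  rw [h1, Submonoid.closure_eq] at h2
  rw [Algebra.top_toSubmodule] at h2
  exact h2.symm

/-- D5. The dual basis (for the pairing `∑ x, f x * g x`) of a `Qbar`-basis of Galois-equivariant functions
is Galois-equivariant. -/
theorem exists_dual_family [Fintype X] [DecidableEq X] (e : Fin (Fintype.card X) → X → Qbar)
    (he : ∀ j, GalEquivariant X (e j)) (hL : LinearIndependent Qbar e) :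
    ∃ e' : Fin (Fintype.card X) → X → Qbar, (∀ j, GalEquivariant X (e' j)) ∧
      (∀ j k, ∑ x, e j x * e' k x = if j = k then 1 else 0) ∧
      (∀ x y, ∑ j, e j x * e' j y = if x = y then 1 else 0) := by
  classical
  let φ : X ≃ Fin (Fintype.card X) := Fintype.equivFin X
  let M : Matrix (Fin (Fintype.card X)) (Fin (Fintype.card X)) Qbar := fun j i => e j (φ.symm i)
  have hrows : LinearIndependent Qbar M.row := by
    have hinj : Function.Injective (LinearMap.funLeft Qbar Qbar (φ.symm : Fin (Fintype.card X) → X)) :=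
      LinearMap.funLeft_injective_of_surjective Qbar Qbar _ φ.symm.surjective
    have := hL.map' (LinearMap.funLeft Qbar Qbar (φ.symm : Fin (Fintype.card X) → X))
      (LinearMap.ker_eq_bot.mpr hinj)
    exact this
  have hunit : IsUnit M := Matrix.linearIndependent_rows_iff_isUnit.mp hrows
  have hdet : IsUnit M.det := (Matrix.isUnit_iff_isUnit_det M).mp hunit
  have hMM : M * M⁻¹ = 1 := Matrix.mul_nonsing_inv M hdet
  have hMM' : M⁻¹ * M = 1 := Matrix.nonsing_inv_mul M hdet
  let e' : Fin (Fintype.card X) → X → Qbar := fun k x => M⁻¹ (φ x) k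
  have hA : ∀ j k, ∑ x, e j x * e' k x = if j = k then 1 else 0 := by
    intro j k
    have h1 : ∑ x, e j x * e' k x = ∑ i, M j i * M⁻¹ i k := by
      rw [← Equiv.sum_comp φ]
      apply Finset.sum_congr rfl
      intro x _
      simp only [M, e', Equiv.symm_apply_apply]
    rw [h1]
    have h2 := congrFun (congrFun hMM j) k
    rw [Matrix.mul_apply] at h2
    rw [h2, Matrix.one_apply]
  have hB : ∀ x y, ∑ j, e j x * e' j y = if x = y then 1 else 0 := by
    intro x y
    have h2 := congrFun (congrFun hMM' (φ y)) (φ x)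
    rw [Matrix.mul_apply] at h2
    have h1 : ∑ j, e j x * e' j y = ∑ j, M⁻¹ (φ y) j * M j (φ x) := by
      apply Finset.sum_congr rfl
      intro j _
      simp only [M, e', Equiv.symm_apply_apply]
      ring
    rw [h1, h2, Matrix.one_apply]
    by_cases hxy : x = y
    · subst hxy; simp
    · have : φ y ≠ φ x := fun h => hxy (φ.injective h).symm
      simp [hxy, this]
  -- uniqueness of the dual family
  have huniq : ∀ (k : Fin (Fintype.card X)) (g : X → Qbar),
      (∀ j, ∑ x, e j x * g x = if j = k then 1 else 0) → g = e' k := by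
    intro k g hg
    funext y
    have h1 : g y = ∑ x, (∑ j, e j x * e' j y) * g x := by
      simp only [hB]
      simp
    rw [h1]
    have h2 : ∑ x, (∑ j, e j x * e' j y) * g x = ∑ j, e' j y * ∑ x, e j x * g x := by
      simp only [Finset.sum_mul, Finset.mul_sum]
      rw [Finset.sum_comm]
      apply Finset.sum_congr rfl
      intro j _
      apply Finset.sum_congr rfl
      intro x _
      ring
    rw [h2]
    simp only [hg]
    simp
  refine ⟨e', ?_, hA, hB⟩
  intro k σ x
  have hg : (fun x => σ⁻¹ (e' k (σ • x))) = e' k := by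
    apply huniq
    intro j
    have h1 : ∑ x, e j x * σ⁻¹ (e' k (σ • x)) = σ⁻¹ (∑ x, e j (σ • x) * e' k (σ • x)) := by
      rw [map_sum]
      apply Finset.sum_congr rfl
      intro x _
      rw [map_mul, he j σ x]
      congr 1
      exact (AlgEquiv.symm_apply_apply σ (e j x)).symm
    rw [h1]
    have h2 : ∑ x, e j (σ • x) * e' k (σ • x) = ∑ x, e j x * e' k x :=
      Equiv.sum_comp (MulAction.toPerm σ) (fun x => e j x * e' k x)
    rw [h2, hA]
    split_ifs <;> simp
  have h3 : σ⁻¹ (e' k (σ • x)) = e' k x := congrFun hg x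
  rw [← h3]
  exact (AlgEquiv.apply_symm_apply σ (e' k (σ • x))).symm

end

end Fermat.Agent.S19
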