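/-
S19, algebra side, package A3a (formal properties of the Hopf order `H = hopfOrder`).
FROZEN STATEMENTS (helper107 skeleton).  All proofs are formal:
* L1: an element of `sSup` is a finite sum of elements of members; `ComulIn` is additive (concatenate).
* L2: `Y := span {f * g | f, g ∈ H}` is an `O`-subcomodule of `O`
  (`(f * g)(x + y) = ∑ (g_j * g'_k)(x) * (h_j * h'_k)(y)`), hence `Y ≤ H`; `span {1}` is one as well.
* L5: `{f | f ∘ neg ∈ H}` is an `O`-subcomodule of `O`.
* L4: `f 0` is Galois-invariant and in `A` (D3, D4).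
Proofs: helper1016.
-/
import Fermat.Agent.S19.Alg.Descent

set_option autoImplicit false

namespace Fermat.Agent.S19

namespace HopfOrder1016

section

variable {X : Type} [AddCommGroup X] [DistribMulAction GQ X]

/-- `ComulIn` with an arbitrary finite index type. -/
theorem comulIn_of_fintype {S T : Set (X → Qbar)} {f : X → Qbar} {ι : Type} [Fintype ι]
    (g h : ι → X → Qbar) (hg : ∀ j, g j ∈ S) (hh : ∀ j, h j ∈ T)
    (hf : ∀ x y : X, f (x + y) = ∑ j, g j x * h j y) : ComulIn X S T f := by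
  classical
  refine ⟨Fintype.card ι, fun j => g ((Fintype.equivFin ι).symm j),
    fun j => h ((Fintype.equivFin ι).symm j), fun j => hg _, fun j => hh _, ?_⟩
  intro x y
  rw [hf x y]
  exact Fintype.sum_equiv (Fintype.equivFin ι) _ _ (fun j => by simp)

theorem comulIn_mono {S S' T T' : Set (X → Qbar)} (hS : S ⊆ S') (hT : T ⊆ T') {f : X → Qbar}
    (h : ComulIn X S T f) : ComulIn X S' T' f := by
  obtain ⟨n, g, h, hg, hh, hf⟩ := h
  exact ⟨n, g, h, fun j => hS (hg j), fun j => hT (hh j), hf⟩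

theorem comulIn_zero {S T : Set (X → Qbar)} : ComulIn X S T 0 :=
  ⟨0, fun _ => 0, fun _ => 0, fun j => j.elim0, fun j => j.elim0, fun x y => by simp⟩

theorem comulIn_add {S T : Set (X → Qbar)} {f f' : X → Qbar} (hf : ComulIn X S T f)
    (hf' : ComulIn X S T f') : ComulIn X S T (f + f') := by
  obtain ⟨n, g, h, hg, hh, hf⟩ := hf
  obtain ⟨n', g', h', hg', hh', hf'⟩ := hf'
  refine comulIn_of_fintype (ι := Fin n ⊕ Fin n') (Sum.elim g g') (Sum.elim h h') ?_ ?_ ?_
  · rintro (j | j)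
    exacts [hg j, hg' j]
  · rintro (j | j)
    exacts [hh j, hh' j]
  · intro x y
    rw [Fintype.sum_sum_type]
    simp [hf x y, hf' x y]

theorem comulIn_smul {S : Set (X → Qbar)} {ℓ : ℕ} (Y : Submodule (Zl ℓ) (X → Qbar)) (r : Zl ℓ)
    {f : X → Qbar} (hf : ComulIn X S (Y : Set (X → Qbar)) f) :
    ComulIn X S (Y : Set (X → Qbar)) (r • f) := by
  obtain ⟨n, g, h, hg, hh, hf⟩ := hf
  refine ⟨n, g, fun j => r • h j, hg, fun j => Y.smul_mem r (hh j), ?_⟩
  intro x y
  simp only [Pi.smul_apply, hf x y, Finset.smul_sum]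
  refine Finset.sum_congr rfl fun j _ => ?_
  rw [mul_smul_comm]

theorem maxOrder_zero (A : ValuationSubring Qbar) : (0 : X → Qbar) ∈ maxOrder X A :=
  ⟨fun σ x => by simp, fun _ => A.zero_mem⟩

theorem maxOrder_one (A : ValuationSubring Qbar) : (1 : X → Qbar) ∈ maxOrder X A :=
  ⟨fun σ x => by simp, fun _ => A.one_mem⟩

theorem maxOrder_add {A : ValuationSubring Qbar} {f g : X → Qbar} (hf : f ∈ maxOrder X A)
    (hg : g ∈ maxOrder X A) : f + g ∈ maxOrder X A :=
  ⟨fun σ x => by simp [hf.1 σ x, hg.1 σ x], fun x => A.add_mem _ _ (hf.2 x) (hg.2 x)⟩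

theorem maxOrder_mul {A : ValuationSubring Qbar} {f g : X → Qbar} (hf : f ∈ maxOrder X A)
    (hg : g ∈ maxOrder X A) : f * g ∈ maxOrder X A :=
  ⟨fun σ x => by simp [hf.1 σ x, hg.1 σ x], fun x => A.mul_mem _ _ (hf.2 x) (hg.2 x)⟩

theorem maxOrder_smul {ℓ : ℕ} [Fact ℓ.Prime] {A : ValuationSubring Qbar} (hA : A.LiesOverPrime ℓ)
    (r : Zl ℓ) {f : X → Qbar} (hf : f ∈ maxOrder X A) : r • f ∈ maxOrder X A := by
  refine ⟨fun σ x => ?_, fun x => ?_⟩
  · simp only [Pi.smul_apply, hf.1 σ x]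
    rw [Algebra.smul_def, Algebra.smul_def, map_mul]
    congr 1
    exact (σ.commutes (r : ℚ)).symm
  · simp only [Pi.smul_apply]
    rw [Algebra.smul_def]
    exact A.mul_mem _ _ (algebraMap_Zl_mem ℓ A hA r) (hf.2 x)

theorem maxOrder_comp_neg {A : ValuationSubring Qbar} {f : X → Qbar} (hf : f ∈ maxOrder X A) :
    (fun x => f (-x)) ∈ maxOrder X A :=
  ⟨fun σ x => by rw [← hf.1 σ (-x), smul_neg], fun x => hf.2 (-x)⟩

end

end HopfOrder1016

open HopfOrder1016

section

variable (ℓ : ℕ) [Fact ℓ.Prime] (X : Type) [AddCommGroup X] [DistribMulAction GQ X]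
  (A : ValuationSubring Qbar)

/-- L1. The Hopf order is an `O`-subcomodule of `O`. -/
theorem isOrderComodule_hopfOrder : IsOrderComodule X ℓ A (hopfOrder X ℓ A) := by
  have key : ∀ f ∈ hopfOrder X ℓ A, f ∈ maxOrder X A ∧
      ComulIn X (maxOrder X A) (hopfOrder X ℓ A : Set (X → Qbar)) f := by
    intro f hf
    have hf' : f ∈ ⨆ Y : {Y | IsOrderComodule X ℓ A Y}, (Y : Submodule (Zl ℓ) (X → Qbar)) := by
      rw [← sSup_eq_iSup']
      exact hf
    refine Submodule.iSup_induction _ (motive := fun f => f ∈ maxOrder X A ∧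
      ComulIn X (maxOrder X A) (hopfOrder X ℓ A : Set (X → Qbar)) f) hf' ?_ ?_ ?_
    · rintro ⟨Y, hY⟩ g hg
      exact ⟨hY.1 g hg, comulIn_mono subset_rfl (le_sSup (a := Y) hY) (hY.2 g hg)⟩
    · exact ⟨maxOrder_zero A, comulIn_zero⟩
    · intro g g' hg hg'
      exact ⟨maxOrder_add hg.1 hg'.1, comulIn_add hg.2 hg'.2⟩
  exact ⟨fun f hf => (key f hf).1, fun f hf => (key f hf).2⟩

/-- L1'. It is the largest one. -/
theorem le_hopfOrder_of_isOrderComodule (Y : Submodule (Zl ℓ) (X → Qbar))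
    (hY : IsOrderComodule X ℓ A Y) : Y ≤ hopfOrder X ℓ A :=
  le_sSup hY

/-- L2a. -/
theorem one_mem_hopfOrder (hA : A.LiesOverPrime ℓ) : (1 : X → Qbar) ∈ hopfOrder X ℓ A := by
  have hY : IsOrderComodule X ℓ A (Submodule.span (Zl ℓ) {(1 : X → Qbar)}) := by
    constructor
    · intro f hf
      obtain ⟨r, rfl⟩ := Submodule.mem_span_singleton.1 hf
      exact maxOrder_smul hA r (maxOrder_one A)
    · intro f hf
      exact ⟨1, fun _ => 1, fun _ => f, fun _ => maxOrder_one A, fun _ => hf, fun x y => by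
        obtain ⟨r, rfl⟩ := Submodule.mem_span_singleton.1 hf
        simp⟩
  exact le_hopfOrder_of_isOrderComodule ℓ X A _ hY (Submodule.mem_span_singleton_self _)

/-- L2b. The Hopf order is closed under pointwise multiplication. -/
theorem mul_mem_hopfOrder (hA : A.LiesOverPrime ℓ) {f g : X → Qbar}
    (hf : f ∈ hopfOrder X ℓ A) (hg : g ∈ hopfOrder X ℓ A) : f * g ∈ hopfOrder X ℓ A := by
  have hHc := isOrderComodule_hopfOrder ℓ X A
  have hY : IsOrderComodule X ℓ A (Submodule.span (Zl ℓ)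
      {u : X → Qbar | ∃ f ∈ hopfOrder X ℓ A, ∃ g ∈ hopfOrder X ℓ A, u = f * g}) := by
    constructor
    · intro u hu
      refine Submodule.span_induction ?_ ?_ ?_ ?_ hu
      · rintro _ ⟨f, hf, g, hg, rfl⟩
        exact maxOrder_mul (hHc.1 f hf) (hHc.1 g hg)
      · exact maxOrder_zero A
      · intro a b _ _ ha hb
        exact maxOrder_add ha hb
      · intro r a _ ha
        exact maxOrder_smul hA r ha
    · intro u hu
      refine Submodule.span_induction ?_ ?_ ?_ ?_ hu
      · rintro _ ⟨f, hf, g, hg, rfl⟩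
        obtain ⟨n, a, b, ha, hb, hab⟩ := hHc.2 f hf
        obtain ⟨n', a', b', ha', hb', hab'⟩ := hHc.2 g hg
        refine comulIn_of_fintype (ι := Fin n × Fin n') (fun p => a p.1 * a' p.2)
          (fun p => b p.1 * b' p.2) ?_ ?_ ?_
        · intro p
          exact maxOrder_mul (ha p.1) (ha' p.2)
        · intro p
          exact Submodule.subset_span ⟨b p.1, hb p.1, b' p.2, hb' p.2, rfl⟩
        · intro x y
          simp only [Pi.mul_apply, hab x y, hab' x y, Finset.sum_mul_sum, Fintype.sum_prod_type]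
          refine Finset.sum_congr rfl fun i _ => Finset.sum_congr rfl fun j _ => by ring
      · exact comulIn_zero
      · intro a b _ _ ha hb
        exact comulIn_add ha hb
      · intro r a _ ha
        exact comulIn_smul _ r ha
  exact le_hopfOrder_of_isOrderComodule ℓ X A _ hY (Submodule.subset_span ⟨f, hf, g, hg, rfl⟩)

/-- L5. The Hopf order is stable under the antipode. -/
theorem comp_neg_mem_hopfOrder (hA : A.LiesOverPrime ℓ) {f : X → Qbar}
    (hf : f ∈ hopfOrder X ℓ A) : (fun x => f (-x)) ∈ hopfOrder X ℓ A := by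
  have _hA := hA
  have hHc := isOrderComodule_hopfOrder ℓ X A
  let N : (X → Qbar) →ₗ[Zl ℓ] (X → Qbar) := LinearMap.funLeft (Zl ℓ) Qbar (fun x : X => -x)
  have hN : ∀ u : X → Qbar, N u = fun x => u (-x) := fun u => rfl
  have hNN : ∀ u : X → Qbar, N (N u) = u := fun u => by
    funext x
    simp [hN]
  have hY : IsOrderComodule X ℓ A ((hopfOrder X ℓ A).comap N) := by
    constructor
    · intro u hu
      have h1 := maxOrder_comp_neg (hHc.1 _ (Submodule.mem_comap.1 hu))
      have h2 : (fun x => N u (-x)) = u := hNN u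
      rwa [h2] at h1
    · intro u hu
      obtain ⟨n, a, b, ha, hb, hab⟩ := hHc.2 _ (Submodule.mem_comap.1 hu)
      refine ⟨n, fun j => N (a j), fun j => N (b j), fun j => maxOrder_comp_neg (ha j),
        fun j => ?_, ?_⟩
      · show N (N (b j)) ∈ hopfOrder X ℓ A
        rw [hNN]
        exact hb j
      · intro x y
        have h3 := hab (-x) (-y)
        simp only [hN] at h3 ⊢
        rw [← h3]
        congr 1
        abel
  have h4 : N f ∈ (hopfOrder X ℓ A).comap N := by
    show N (N f) ∈ hopfOrder X ℓ A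
    rw [hNN]
    exact hf
  exact le_hopfOrder_of_isOrderComodule ℓ X A _ hY h4

/-- L4. The counit has values in `ℤ_(ℓ)`. -/
theorem apply_zero_mem_range (hA : A.LiesOverPrime ℓ) {f : X → Qbar}
    (hf : f ∈ hopfOrder X ℓ A) : f 0 ∈ Set.range (algebraMap (Zl ℓ) Qbar) := by
  have hO := (isOrderComodule_hopfOrder ℓ X A).1 f hf
  obtain ⟨q, hq⟩ := exists_rat_of_forall_fixed (f 0) (fun σ => by rw [← hO.1 σ 0, smul_zero])
  have hqA : algebraMap ℚ Qbar q ∈ A := by
    rw [hq]
    exact hO.2 0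
  exact ⟨⟨q, rat_mem_ratLocalizedAt ℓ A hA q hqA⟩, hq⟩

end

end Fermat.Agent.S19
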