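/-
S19, algebra side, package A3b: the Hopf order is closed under comultiplication ((H2) of the route note;
NO full-rank hypothesis is needed in the comodule formulation).  FROZEN STATEMENT (helper107 skeleton).
Proof (coefficient coalgebra).  For `f ∈ H`: `f (x + y) = ∑ i, o i x * y i y` with `o i ∈ O`, `y i ∈ H` (L1);
expanding `y i` in the basis `b` gives `f (x + y) = ∑ k, G k x * b k y` with `G k ∈ O`, and the `G k` are
unique (`b` is `Qbar`-independent).  Let `C` be the set of all such coefficient functions `G k` (for all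
`f ∈ H`), `Y := H ⊔ span C`.  Coassociativity: `f (x + y + z)` expanded in two ways gives
`G k (x + y) = ∑ j, G j x * G' j k y`, where `G' j` are the coefficient functions of `b j ∈ H`;
so `Y` is an `O`-subcomodule of `O`, `Y ≤ H`, `C ⊆ H`.

Proof of the frozen statement: helper1796 (auxiliary lemmas in namespace `Fermat.Agent.S19.Comul1796`).
-/
import Fermat.Agent.S19.Alg.HopfOrder

set_option autoImplicit false

namespace Fermat.Agent.S19

namespace Comul1796

section

variable (X : Type) [AddCommGroup X]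

/-- `ComulIn` with an arbitrary finite index type. -/
theorem comulIn_of_fintype {S T : Set (X → Qbar)} {f : X → Qbar} {ι : Type} [Fintype ι]
    (g h : ι → X → Qbar) (hg : ∀ j, g j ∈ S) (hh : ∀ j, h j ∈ T)
    (hf : ∀ x y : X, f (x + y) = ∑ j, g j x * h j y) : ComulIn X S T f := by
  classical
  let e := Fintype.equivFin ι
  refine ⟨Fintype.card ι, fun j => g (e.symm j), fun j => h (e.symm j), fun j => hg _,
    fun j => hh _, fun x y => ?_⟩
  rw [hf x y]
  exact (Equiv.sum_comp e.symm (fun j => g j x * h j y)).symm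

theorem comulIn_mono {S T T' : Set (X → Qbar)} (hT : T ⊆ T') {f : X → Qbar}
    (hf : ComulIn X S T f) : ComulIn X S T' f := by
  obtain ⟨n, g, h, hg, hh, hf⟩ := hf
  exact ⟨n, g, h, hg, fun j => hT (hh j), hf⟩

theorem comulIn_zero (S T : Set (X → Qbar)) : ComulIn X S T (0 : X → Qbar) :=
  ⟨0, fun j => j.elim0, fun j => j.elim0, fun j => j.elim0, fun j => j.elim0, fun x y => by simp⟩

theorem comulIn_add {S T : Set (X → Qbar)} {f f' : X → Qbar}
    (hf : ComulIn X S T f) (hf' : ComulIn X S T f') : ComulIn X S T (f + f') := by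
  obtain ⟨n, g, h, hg, hh, hf⟩ := hf
  obtain ⟨n', g', h', hg', hh', hf'⟩ := hf'
  refine comulIn_of_fintype X (ι := Fin n ⊕ Fin n') (Sum.elim g g') (Sum.elim h h') ?_ ?_ ?_
  · rintro (j | j)
    · exact hg j
    · exact hg' j
  · rintro (j | j)
    · exact hh j
    · exact hh' j
  · intro x y
    rw [Fintype.sum_sum_type, Pi.add_apply, hf x y, hf' x y]
    rfl

theorem comulIn_smul {ℓ : ℕ} {S : Set (X → Qbar)} (Y : Submodule (Zl ℓ) (X → Qbar))
    (r : Zl ℓ) {f : X → Qbar} (hf : ComulIn X S (Y : Set (X → Qbar)) f) :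
    ComulIn X S (Y : Set (X → Qbar)) (r • f) := by
  obtain ⟨n, g, h, hg, hh, hf⟩ := hf
  refine ⟨n, g, fun j => r • h j, hg, fun j => Y.smul_mem r (hh j), fun x y => ?_⟩
  rw [Pi.smul_apply, hf x y, Finset.smul_sum]
  refine Finset.sum_congr rfl fun j _ => ?_
  show r • (g j x * h j y) = g j x * (r • h j y)
  rw [mul_smul_comm]

end

section

variable (X : Type)

/-- Uniqueness of the coefficients with respect to a `Qbar`-independent family. -/
theorem coeff_unique {d : ℕ} (b : Fin d → X → Qbar) (hbL : LinearIndependent Qbar b)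
    (u v : Fin d → Qbar) (h : ∀ z : X, ∑ k, u k * b k z = ∑ k, v k * b k z) : u = v := by
  have h0 : ∑ k, (u k - v k) • b k = 0 := by
    funext z
    rw [Finset.sum_apply, Pi.zero_apply]
    have := h z
    simp only [Pi.smul_apply, smul_eq_mul, sub_mul, Finset.sum_sub_distrib]
    rw [this, sub_self]
  have := Fintype.linearIndependent_iff.mp hbL _ h0
  funext k
  exact sub_eq_zero.mp (this k)

end

section

variable (X : Type) [AddCommGroup X] [DistribMulAction GQ X]

theorem zero_mem_maxOrder (A : ValuationSubring Qbar) : (0 : X → Qbar) ∈ maxOrder X A :=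
  ⟨fun σ x => by simp, fun x => A.zero_mem⟩

theorem add_mem_maxOrder (A : ValuationSubring Qbar) {f g : X → Qbar}
    (hf : f ∈ maxOrder X A) (hg : g ∈ maxOrder X A) : f + g ∈ maxOrder X A :=
  ⟨fun σ x => by rw [Pi.add_apply, Pi.add_apply, hf.1 σ x, hg.1 σ x, map_add],
    fun x => A.add_mem _ _ (hf.2 x) (hg.2 x)⟩

theorem smul_mem_maxOrder (ℓ : ℕ) [Fact ℓ.Prime] (A : ValuationSubring Qbar)
    (hA : A.LiesOverPrime ℓ) (r : Zl ℓ) {f : X → Qbar} (hf : f ∈ maxOrder X A) :
    r • f ∈ maxOrder X A := by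
  refine ⟨fun σ x => ?_, fun x => ?_⟩
  · rw [Pi.smul_apply, Pi.smul_apply, hf.1 σ x, Algebra.smul_def, Algebra.smul_def, map_mul]
    congr 1
    exact (σ.commutes (r : ℚ)).symm
  · rw [Pi.smul_apply, Algebra.smul_def]
    exact A.mul_mem _ _ (algebraMap_Zl_mem ℓ A hA r) (hf.2 x)

theorem sum_smul_mem_maxOrder (ℓ : ℕ) [Fact ℓ.Prime] (A : ValuationSubring Qbar)
    (hA : A.LiesOverPrime ℓ) {ι : Type} (s : Finset ι) (c : ι → Zl ℓ) (g : ι → X → Qbar)
    (hg : ∀ j, g j ∈ maxOrder X A) : (∑ j ∈ s, c j • g j) ∈ maxOrder X A := by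
  classical
  induction s using Finset.induction_on with
  | empty => simpa using zero_mem_maxOrder X A
  | insert a s ha ih =>
    rw [Finset.sum_insert ha]
    exact add_mem_maxOrder X A (smul_mem_maxOrder X ℓ A hA _ (hg a)) ih

theorem span_le_maxOrder (ℓ : ℕ) [Fact ℓ.Prime] (A : ValuationSubring Qbar)
    (hA : A.LiesOverPrime ℓ) {C : Set (X → Qbar)} (hC : C ⊆ maxOrder X A) {f : X → Qbar}
    (hf : f ∈ Submodule.span (Zl ℓ) C) : f ∈ maxOrder X A := by
  induction hf using Submodule.span_induction with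
  | mem x hx => exact hC hx
  | zero => exact zero_mem_maxOrder X A
  | add x y _ _ hx hy => exact add_mem_maxOrder X A hx hy
  | smul r x _ hx => exact smul_mem_maxOrder X ℓ A hA r hx

/-- Coefficient functions of `f ∈ H` with respect to the basis `b`. -/
theorem exists_coeff (ℓ : ℕ) [Fact ℓ.Prime] (A : ValuationSubring Qbar)
    (hA : A.LiesOverPrime ℓ) {d : ℕ} (b : Fin d → X → Qbar)
    (hbR : ∀ f ∈ hopfOrder X ℓ A, f ∈ Submodule.span (Zl ℓ) (Set.range b))
    (f : X → Qbar) (hf : f ∈ hopfOrder X ℓ A) :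
    ∃ G : Fin d → X → Qbar, (∀ k, G k ∈ maxOrder X A) ∧
      ∀ x y : X, f (x + y) = ∑ k, G k x * b k y := by
  obtain ⟨n, g, h, hg, hh, hfe⟩ := (isOrderComodule_hopfOrder ℓ X A).2 f hf
  have hc : ∀ j, ∃ c : Fin d → Zl ℓ, ∑ k, c k • b k = h j := fun j =>
    (Submodule.mem_span_range_iff_exists_fun (Zl ℓ)).mp (hbR _ (hh j))
  choose c hc using hc
  refine ⟨fun k => ∑ j, c j k • g j, fun k => sum_smul_mem_maxOrder X ℓ A hA _ _ _ hg,
    fun x y => ?_⟩
  rw [hfe x y]
  have h1 : ∀ j, g j x * h j y = ∑ k, (c j k • g j x) * b k y := by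
    intro j
    rw [← hc j, Finset.sum_apply, Finset.mul_sum]
    refine Finset.sum_congr rfl fun k _ => ?_
    rw [Pi.smul_apply, mul_smul_comm, smul_mul_assoc]
  simp only [h1]
  rw [Finset.sum_comm]
  refine Finset.sum_congr rfl fun k _ => ?_
  rw [Finset.sum_apply, Finset.sum_mul]
  rfl

end

end Comul1796

section

variable (ℓ : ℕ) [Fact ℓ.Prime] (X : Type) [AddCommGroup X] [DistribMulAction GQ X]
  (A : ValuationSubring Qbar)

open Comul1796 in
/-- L3. If the Hopf order has a `ℤ_(ℓ)`-basis which is `Qbar`-linearly independent then it is closed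
under comultiplication. -/
theorem comulIn_hopfOrder_of_basis (hA : A.LiesOverPrime ℓ) {d : ℕ} (b : Fin d → X → Qbar)
    (hbH : ∀ i, b i ∈ hopfOrder X ℓ A) (hbL : LinearIndependent Qbar b)
    (hbR : ∀ f ∈ hopfOrder X ℓ A, f ∈ Submodule.span (Zl ℓ) (Set.range b)) :
    ∀ f ∈ hopfOrder X ℓ A,
      ComulIn X (hopfOrder X ℓ A : Set (X → Qbar)) (hopfOrder X ℓ A : Set (X → Qbar)) f := by
  classical
  -- coefficient functions of the basis elements
  have hGb : ∀ j, ∃ G : Fin d → X → Qbar, (∀ k, G k ∈ maxOrder X A) ∧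
      ∀ x y : X, b j (x + y) = ∑ k, G k x * b k y := fun j =>
    exists_coeff X ℓ A hA b hbR (b j) (hbH j)
  choose Gb hGbO hGbe using hGb
  -- the set of all coefficient functions
  let C : Set (X → Qbar) := {G | ∃ f ∈ hopfOrder X ℓ A, ∃ (Gf : Fin d → X → Qbar) (k : Fin d),
    (∀ k, Gf k ∈ maxOrder X A) ∧ (∀ x y : X, f (x + y) = ∑ k, Gf k x * b k y) ∧ G = Gf k}
  have hCO : C ⊆ maxOrder X A := by
    rintro G ⟨f, _, Gf, k, hGf, _, rfl⟩
    exact hGf k
  let Y : Submodule (Zl ℓ) (X → Qbar) := hopfOrder X ℓ A ⊔ Submodule.span (Zl ℓ) C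
  have hHY : (hopfOrder X ℓ A : Set (X → Qbar)) ⊆ (Y : Set (X → Qbar)) := fun f hf =>
    (le_sup_left : hopfOrder X ℓ A ≤ Y) hf
  have hCY : C ⊆ (Y : Set (X → Qbar)) := fun f hf =>
    (le_sup_right : Submodule.span (Zl ℓ) C ≤ Y) (Submodule.subset_span hf)
  have hL1 := isOrderComodule_hopfOrder ℓ X A
  -- coassociativity: the coefficient functions have comultiplication in `O ⊗ C`
  have hCcomul : ∀ G ∈ C, ComulIn X (maxOrder X A) (Y : Set (X → Qbar)) G := by
    rintro G ⟨f, hf, Gf, k, hGf, hfe, rfl⟩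
    refine ⟨d, Gf, fun j => Gb j k, hGf, fun j => hCY ⟨b j, hbH j, Gb j, k, hGbO j, hGbe j, rfl⟩,
      fun x y => ?_⟩
    have key : (fun k => Gf k (x + y)) = fun k => ∑ j, Gf j x * Gb j k y := by
      refine coeff_unique X b hbL _ _ fun z => ?_
      rw [← hfe (x + y) z, add_assoc, hfe x (y + z)]
      have h1 : ∀ j, Gf j x * b j (y + z) = ∑ k, Gf j x * Gb j k y * b k z := by
        intro j
        rw [hGbe j y z, Finset.mul_sum]
        exact Finset.sum_congr rfl fun k _ => (mul_assoc _ _ _).symm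
      simp only [h1]
      rw [Finset.sum_comm]
      exact Finset.sum_congr rfl fun k _ => (Finset.sum_mul _ _ _).symm
    exact congrFun key k
  have hY : IsOrderComodule X ℓ A Y := by
    refine ⟨fun f hf => ?_, fun f hf => ?_⟩
    · obtain ⟨h, hh, s, hs, rfl⟩ := Submodule.mem_sup.mp hf
      exact add_mem_maxOrder X A (hL1.1 h hh) (span_le_maxOrder X ℓ A hA hCO hs)
    · obtain ⟨h, hh, s, hs, rfl⟩ := Submodule.mem_sup.mp hf
      refine comulIn_add X (comulIn_mono X hHY (hL1.2 h hh)) ?_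
      clear hf
      induction hs using Submodule.span_induction with
      | mem x hx => exact hCcomul x hx
      | zero => exact comulIn_zero X _ _
      | add x y _ _ hx hy => exact comulIn_add X hx hy
      | smul r x _ hx => exact comulIn_smul X Y r hx
  have hYH : Y ≤ hopfOrder X ℓ A := le_hopfOrder_of_isOrderComodule ℓ X A Y hY
  intro f hf
  obtain ⟨Gf, hGf, hfe⟩ := exists_coeff X ℓ A hA b hbR f hf
  exact ⟨d, Gf, b, fun k => hYH (hCY ⟨f, hf, Gf, k, hGf, hfe, rfl⟩), hbH, hfe⟩

end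

end Fermat.Agent.S19
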