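/-
S19, algebra side, package A2 (the maximal order is a lattice).  FROZEN STATEMENT (helper107 skeleton).
Sketch: by D1/D2 (`Descent.lean`) the Galois-equivariant functions form a `ℚ`-space of dimension `#X` whose
`ℚ`-bases are `Qbar`-bases of all functions.  Every equivariant `f` has `m • f ∈ O` for some positive integer
`m` (finitely many algebraic values), so there is a `ℚ`-basis `e₀` inside `O`.  The pairing
`∑ x, f x * g x` is `ℤ_(ℓ)`-valued on `O` (Galois-invariant, in `A`; D3, D4), so `O` is contained in the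
`ℤ_(ℓ)`-span of the dual family of `e₀` (D5): `O` is a finitely generated torsion-free module over the
PID `ℤ_(ℓ)` (`Fermat.Agent.S28.QRed.isLocalization_ratLoc` on main gives the localisation instance),
hence free, of rank `#X`.

Proof (helper5867): helper lemmas `ord5867_*` below; the principal ideal property of `ℤ_(ℓ)` is proved
directly (`ord5867_isPrincipalIdealRing`), no dependency on other trees.
-/
import Fermat.Agent.S19.Alg.Descent

set_option autoImplicit false

namespace Fermat.Agent.S19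

section

variable (ℓ : ℕ) [Fact ℓ.Prime] (X : Type) [AddCommGroup X] [DistribMulAction GQ X]

/-- The inverse of the denominator of an element of `ℤ_(ℓ)` lies in `ℤ_(ℓ)`. -/
theorem ord5867_inv_den_mem (ℓ : ℕ) (x : Zl ℓ) :
    (((x : ℚ).den : ℚ))⁻¹ ∈ GaloisRep.ratLocalizedAt ℓ := by
  have hx : (x : ℚ).den.Coprime ℓ := x.2
  show ((((x : ℚ).den : ℚ))⁻¹).den.Coprime ℓ
  have h0 : (x : ℚ).den ≠ 0 := (x : ℚ).den_nz
  have : ((((x : ℚ).den : ℚ))⁻¹).den = (x : ℚ).den := by
    rw [Rat.inv_natCast_den]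
    simp [h0]
  rw [this]
  exact hx

/-- `ℤ_(ℓ)` is a principal ideal ring. -/
theorem ord5867_isPrincipalIdealRing (ℓ : ℕ) : IsPrincipalIdealRing (Zl ℓ) := by
  refine ⟨fun I => ?_⟩
  obtain ⟨d, hd⟩ := (IsPrincipalIdealRing.principal (I.comap (algebraMap ℤ (Zl ℓ)))).principal
  refine ⟨⟨algebraMap ℤ (Zl ℓ) d, ?_⟩⟩
  apply le_antisymm
  · intro x hx
    -- `x * den = num ∈ I`
    have hnum : algebraMap ℤ (Zl ℓ) (x : ℚ).num ∈ I := by
      have h1 : algebraMap ℤ (Zl ℓ) (x : ℚ).num = x * algebraMap ℤ (Zl ℓ) ((x : ℚ).den : ℤ) := by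
        apply Subtype.ext
        show (((x : ℚ).num : ℤ) : ℚ) = (x : ℚ) * ((((x : ℚ).den : ℤ) : ℤ) : ℚ)
        exact (Rat.mul_den_eq_num _).symm
      rw [h1]
      exact I.mul_mem_right _ hx
    have hnum' : (x : ℚ).num ∈ I.comap (algebraMap ℤ (Zl ℓ)) := hnum
    rw [hd] at hnum'
    obtain ⟨m, hm⟩ := Submodule.mem_span_singleton.mp hnum'
    -- `x = d * (m / den)`
    have hx' : x = (⟨(m : ℚ) * (((x : ℚ).den : ℚ))⁻¹,
        Subring.mul_mem _ (by show ((m : ℚ)).den.Coprime ℓ; simp) (ord5867_inv_den_mem ℓ x)⟩ : Zl ℓ) *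
          algebraMap ℤ (Zl ℓ) d := by
      apply Subtype.ext
      show (x : ℚ) = ((m : ℚ) * (((x : ℚ).den : ℚ))⁻¹) * ((d : ℤ) : ℚ)
      have h0 : (((x : ℚ).den : ℚ)) ≠ 0 := by exact_mod_cast (x : ℚ).den_nz
      have h2 : (((x : ℚ).num : ℤ) : ℚ) = (m : ℚ) * (d : ℚ) := by
        rw [← hm]; simp
      field_simp
      rw [Rat.mul_den_eq_num, h2]
    rw [hx']
    exact Ideal.mul_mem_left _ _ (Ideal.subset_span rfl)
  · rw [Submodule.span_singleton_le_iff_mem]
    have : d ∈ I.comap (algebraMap ℤ (Zl ℓ)) := by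
      rw [hd]; exact Submodule.mem_span_singleton_self d
    exact this

/-- Every algebraic number has a positive integer multiple in a given valuation ring. -/
theorem ord5867_exists_nat_mul_mem (A : ValuationSubring Qbar) (a : Qbar) :
    ∃ m : ℕ, 0 < m ∧ (m : Qbar) * a ∈ A := by
  have halg : IsAlgebraic ℤ a := by
    have h1 : IsAlgebraic ℚ a := (AlgebraicClosure.isAlgebraic ℚ : Algebra.IsAlgebraic ℚ (AlgebraicClosure ℚ)).isAlgebraic a
    exact (IsFractionRing.isAlgebraic_iff ℤ ℚ Qbar).mpr h1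
  obtain ⟨y, hy0, hy⟩ := halg.exists_integral_multiple
  have hyA : IsIntegral A (y • a) := hy.tower_top
  obtain ⟨z, hz⟩ := IsIntegrallyClosed.isIntegral_iff.mp hyA
  refine ⟨y.natAbs, Int.natAbs_pos.mpr hy0, ?_⟩
  have h2 : (y : Qbar) * a ∈ A := by
    have : (y : Qbar) * a = y • a := by rw [zsmul_eq_mul]
    rw [this, ← hz]
    exact z.2
  rcases Int.natAbs_eq y with h | h
  · have : ((y.natAbs : ℕ) : Qbar) = (y : Qbar) := by
      conv_rhs => rw [h]
      simp
    rw [this]; exact h2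
  · have : ((y.natAbs : ℕ) : Qbar) = -(y : Qbar) := by
      conv_rhs => rw [h]
      simp
    rw [this, neg_mul]; exact A.neg_mem _ h2

/-- A finite family of algebraic numbers has a common positive integer multiple in `A`. -/
theorem ord5867_exists_nat_forall_mul_mem (A : ValuationSubring Qbar) {ι : Type} [Finite ι]
    (a : ι → Qbar) : ∃ m : ℕ, 0 < m ∧ ∀ i, (m : Qbar) * a i ∈ A := by
  classical
  cases nonempty_fintype ι
  choose m hm0 hm using fun i => ord5867_exists_nat_mul_mem A (a i)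
  refine ⟨∏ i, m i, Finset.prod_pos fun i _ => hm0 i, fun i => ?_⟩
  rw [← Finset.prod_erase_mul _ _ (Finset.mem_univ i)]
  push_cast
  rw [mul_assoc]
  refine A.mul_mem _ _ ?_ (hm i)
  have : (∏ x ∈ Finset.univ.erase i, (m x : Qbar)) = ((∏ x ∈ Finset.univ.erase i, m x : ℕ) : Qbar) := by
    push_cast; rfl
  rw [this]
  exact natCast_mem A _

omit [Fact ℓ.Prime] [AddCommGroup X] [DistribMulAction GQ X] in
/-- The scalar action of `ℤ_(ℓ)` on functions, pointwise. -/
theorem ord5867_smul_apply (r : Zl ℓ) (f : X → Qbar) (x : X) :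
    (r • f) x = algebraMap ℚ Qbar (r : ℚ) * f x := by
  rw [Pi.smul_apply, Algebra.smul_def]
  rfl

/-- The maximal order as a `ℤ_(ℓ)`-submodule of the functions. -/
def ord5867_maxOrderSub (A : ValuationSubring Qbar) (hA : A.LiesOverPrime ℓ) :
    Submodule (Zl ℓ) (X → Qbar) where
  carrier := maxOrder X A
  zero_mem' := ⟨fun σ x => by simp, fun x => A.zero_mem⟩
  add_mem' := fun {f g} hf hg => ⟨fun σ x => by
      show f (σ • x) + g (σ • x) = σ (f x + g x)
      rw [map_add, hf.1 σ x, hg.1 σ x], fun x => A.add_mem _ _ (hf.2 x) (hg.2 x)⟩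
  smul_mem' := fun r f hf => ⟨fun σ x => by
      rw [ord5867_smul_apply, ord5867_smul_apply, map_mul, hf.1 σ x, AlgEquiv.commutes],
    fun x => by
      rw [ord5867_smul_apply]
      exact A.mul_mem _ _ (algebraMap_Zl_mem ℓ A hA r) (hf.2 x)⟩

theorem ord5867_mem_maxOrderSub (A : ValuationSubring Qbar) (hA : A.LiesOverPrime ℓ) (f : X → Qbar) :
    f ∈ ord5867_maxOrderSub ℓ X A hA ↔ f ∈ maxOrder X A := Iff.rfl

/-- The pairing of two equivariant functions is Galois-invariant. -/
theorem ord5867_pairing_fixed [Fintype X] (f g : X → Qbar) (hf : GalEquivariant X f)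
    (hg : GalEquivariant X g) (σ : GQ) :
    σ (∑ x, f x * g x) = ∑ x, f x * g x := by
  rw [map_sum]
  simp_rw [map_mul, ← hf σ, ← hg σ]
  exact Fintype.sum_equiv (MulAction.toPerm σ) _ _ (fun x => rfl)

/-- A `Qbar`-basis of all functions consisting of equivariant functions. -/
theorem ord5867_exists_equivariant_family [Fintype X] (hdisc : DiscreteActionOn X) :
    ∃ e : Fin (Fintype.card X) → X → Qbar, (∀ j, GalEquivariant X (e j)) ∧
      LinearIndependent Qbar e := by
  classical
  obtain ⟨b, hb_sub, hb_span, hb_li⟩ :=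
    exists_linearIndependent Qbar {f : X → Qbar | GalEquivariant X f}
  rw [span_galEquivariant_eq_top X hdisc] at hb_span
  let B : Module.Basis b Qbar (X → Qbar) :=
    Module.Basis.mk hb_li (by rw [Subtype.range_coe]; exact hb_span.ge)
  have : Fintype b := FiniteDimensional.fintypeBasisIndex B
  have hcard : Fintype.card b = Fintype.card X := by
    rw [← Module.finrank_eq_card_basis B, Module.finrank_fintype_fun_eq_card]
  let eq : Fin (Fintype.card X) ≃ b := (Fintype.equivFinOfCardEq hcard).symm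
  exact ⟨fun j => (eq j : X → Qbar), fun j => hb_sub (eq j).2, hb_li.comp _ eq.injective⟩

/-- A family inside the maximal order which is a `Qbar`-basis of all functions, together with a
positive integer `m` such that `m • O` is contained in its `ℤ_(ℓ)`-span. -/
theorem ord5867_exists_sandwich [Fintype X] (hdisc : DiscreteActionOn X) (A : ValuationSubring Qbar)
    (hA : A.LiesOverPrime ℓ) :
    ∃ (e : Fin (Fintype.card X) → X → Qbar) (m : ℕ), 0 < m ∧ (∀ j, e j ∈ maxOrder X A) ∧
      LinearIndependent Qbar e ∧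
      ∀ f ∈ maxOrder X A, (fun x => (m : Qbar) * f x) ∈ Submodule.span (Zl ℓ) (Set.range e) := by
  classical
  obtain ⟨e₀, he₀, hli₀⟩ := ord5867_exists_equivariant_family X hdisc
  obtain ⟨m₁, hm₁, hm₁A⟩ := ord5867_exists_nat_forall_mul_mem A
    (fun p : Fin (Fintype.card X) × X => e₀ p.1 p.2)
  have hm₁0 : (m₁ : Qbar) ≠ 0 := Nat.cast_ne_zero.mpr hm₁.ne'
  -- the scaled family
  set e₁ : Fin (Fintype.card X) → X → Qbar := fun j x => (m₁ : Qbar) * e₀ j x with he₁def
  have he₁eq : ∀ j, GalEquivariant X (e₁ j) := fun j σ x => by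
    show (m₁ : Qbar) * e₀ j (σ • x) = σ ((m₁ : Qbar) * e₀ j x)
    rw [map_mul, map_natCast, he₀ j σ x]
  have he₁O : ∀ j, e₁ j ∈ maxOrder X A := fun j => ⟨he₁eq j, fun x => hm₁A (j, x)⟩
  have hli₁ : LinearIndependent Qbar e₁ := by
    have h := hli₀.units_smul (fun _ => Units.mk0 (m₁ : Qbar) hm₁0)
    convert h using 1
    funext j x
    show (m₁ : Qbar) * e₀ j x = (Units.mk0 (m₁ : Qbar) hm₁0) • e₀ j x
    rfl
  -- the dual family
  obtain ⟨e', he'eq, -, hdual⟩ := exists_dual_family X e₁ he₁eq hli₁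
  obtain ⟨m₂, hm₂, hm₂A⟩ := ord5867_exists_nat_forall_mul_mem A
    (fun p : Fin (Fintype.card X) × X => e' p.1 p.2)
  refine ⟨e₁, m₂, hm₂, he₁O, hli₁, fun f hf => ?_⟩
  -- coefficients
  have hfix : ∀ j, ∀ σ : GQ, σ (∑ y, f y * e' j y) = ∑ y, f y * e' j y := fun j σ =>
    ord5867_pairing_fixed X f (e' j) hf.1 (he'eq j) σ
  choose q hq using fun j => exists_rat_of_forall_fixed _ (hfix j)
  have hqA : ∀ j, algebraMap ℚ Qbar ((m₂ : ℚ) * q j) ∈ A := fun j => by
    rw [map_mul, hq j, map_natCast, Finset.mul_sum]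
    refine A.sum_mem fun y _ => ?_
    rw [mul_left_comm]
    exact A.mul_mem _ _ (hf.2 y) (hm₂A (j, y))
  have hqZ : ∀ j, (m₂ : ℚ) * q j ∈ GaloisRep.ratLocalizedAt ℓ := fun j =>
    rat_mem_ratLocalizedAt ℓ A hA _ (hqA j)
  have hexp : (fun x => (m₂ : Qbar) * f x) =
      ∑ j, (⟨(m₂ : ℚ) * q j, hqZ j⟩ : Zl ℓ) • e₁ j := by
    funext x
    rw [Finset.sum_apply]
    simp_rw [ord5867_smul_apply, map_mul, hq, map_natCast]
    -- `m₂ * f x = ∑ j, m₂ * (∑ y, f y * e' j y) * e₁ j x`
    have h1 : ∀ j, (m₂ : Qbar) * (∑ y, f y * e' j y) * e₁ j x =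
        (m₂ : Qbar) * ∑ y, f y * (e₁ j x * e' j y) := fun j => by
      rw [mul_assoc, Finset.sum_mul]
      congr 1
      refine Finset.sum_congr rfl fun y _ => by ring
    simp_rw [h1]
    rw [← Finset.mul_sum, Finset.sum_comm]
    congr 1
    simp_rw [← Finset.mul_sum, hdual]
    simp
  rw [hexp]
  exact Submodule.sum_mem _ fun j _ => Submodule.smul_mem _ _ (Submodule.subset_span ⟨j, rfl⟩)

/-- `ℚ` is the fraction field of `ℤ_(ℓ)`. -/
theorem ord5867_isFractionRing (ℓ : ℕ) : IsFractionRing (Zl ℓ) ℚ := by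
  have : FaithfulSMul (Zl ℓ) ℚ :=
    (faithfulSMul_iff_algebraMap_injective (Zl ℓ) ℚ).mpr Subtype.val_injective
  refine IsFractionRing.of_field (R := Zl ℓ) (K := ℚ) (fun z =>
    ⟨⟨(z.num : ℚ), by show ((z.num : ℚ)).den.Coprime ℓ; simp⟩,
      ⟨(z.den : ℚ), by show ((z.den : ℚ)).den.Coprime ℓ; simp⟩, ?_⟩)
  exact (Rat.num_div_den z).symm

/-- O3. The maximal order has a `ℤ_(ℓ)`-basis which is `Qbar`-linearly independent
(hence a `Qbar`-basis of all functions, as it has `#X` elements). -/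
theorem exists_basis_maxOrder [Finite X] (hdisc : DiscreteActionOn X) (A : ValuationSubring Qbar)
    (hA : A.LiesOverPrime ℓ) :
    ∃ e : Fin (Nat.card X) → X → Qbar, (∀ j, e j ∈ maxOrder X A) ∧ LinearIndependent Qbar e ∧
      ∀ f ∈ maxOrder X A, f ∈ Submodule.span (Zl ℓ) (Set.range e) := by
  classical
  cases nonempty_fintype X
  rw [Nat.card_eq_fintype_card]
  obtain ⟨e₁, m, hm, he₁O, hli₁, hsand⟩ := ord5867_exists_sandwich ℓ X hdisc A hA
  have := ord5867_isPrincipalIdealRing ℓ
  set O := ord5867_maxOrderSub ℓ X A hA with hO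
  set L₁ := Submodule.span (Zl ℓ) (Set.range e₁) with hL₁
  have : IsNoetherian (Zl ℓ) L₁ := isNoetherian_span_of_finite (Zl ℓ) (Set.finite_range e₁)
  have hm0 : (m : Qbar) ≠ 0 := Nat.cast_ne_zero.mpr hm.ne'
  -- the map `f ↦ m • f` from `O` into `L₁`
  have hmem : ∀ f : O, ((m : Zl ℓ) • O.subtype) f ∈ L₁ := fun f => by
    have := hsand f.1 f.2
    convert this using 1
    funext x
    rw [LinearMap.smul_apply, ord5867_smul_apply]
    simp
  let φ : O →ₗ[Zl ℓ] L₁ := LinearMap.codRestrict L₁ ((m : Zl ℓ) • O.subtype) hmem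
  have hφ : Function.Injective φ := by
    intro f g hfg
    have h1 : ((m : Zl ℓ) • O.subtype) f = ((m : Zl ℓ) • O.subtype) g := congrArg Subtype.val hfg
    apply Subtype.ext
    funext x
    have h2 := congrFun h1 x
    rw [LinearMap.smul_apply, LinearMap.smul_apply, ord5867_smul_apply, ord5867_smul_apply] at h2
    simpa [hm0] using h2
  have : IsNoetherian (Zl ℓ) O := isNoetherian_of_injective φ hφ
  have : Module.IsTorsionFree (Zl ℓ) O := ⟨fun r hr f g hfg => by
    have hr0 : (r : ℚ) ≠ 0 := fun h => hr.ne_zero (Subtype.ext h)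
    have h1 : r • (f : X → Qbar) = r • (g : X → Qbar) := congrArg Subtype.val hfg
    apply Subtype.ext
    funext x
    have h2 := congrFun h1 x
    rw [ord5867_smul_apply, ord5867_smul_apply] at h2
    have hr1 : algebraMap ℚ Qbar (r : ℚ) ≠ 0 := (map_ne_zero _).mpr hr0
    exact mul_left_cancel₀ hr1 h2⟩
  obtain ⟨k, bas⟩ := Module.basisOfFiniteTypeTorsionFree' (R := Zl ℓ) (M := O)
  set e : Fin k → X → Qbar := fun i => (bas i : X → Qbar) with he
  have heO : ∀ i, e i ∈ maxOrder X A := fun i => (bas i).2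
  have hliZ : LinearIndependent (Zl ℓ) e :=
    bas.linearIndependent.map' O.subtype (Submodule.ker_subtype O)
  have hliQ : LinearIndependent ℚ e := by
    have := ord5867_isFractionRing ℓ
    exact LinearIndependent.localization ℚ (nonZeroDivisors (Zl ℓ)) hliZ
  have hli : LinearIndependent Qbar e :=
    linearIndependent_of_galEquivariant X e (fun i => (heO i).1) hliQ
  have hspanO : ∀ f ∈ maxOrder X A, f ∈ Submodule.span (Zl ℓ) (Set.range e) := fun f hf => by
    have h1 : (⟨f, hf⟩ : O) ∈ Submodule.span (Zl ℓ) (Set.range bas) := bas.mem_span _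
    have h2 := Submodule.mem_map_of_mem (f := O.subtype) h1
    rw [Submodule.map_span, ← Set.range_comp] at h2
    exact h2
  have hk : k = Fintype.card X := by
    apply le_antisymm
    · have := hli.fintype_card_le_finrank
      rwa [Fintype.card_fin, Module.finrank_fintype_fun_eq_card] at this
    · have htop : Submodule.span Qbar (Set.range e) = ⊤ := by
        rw [eq_top_iff, ← hli₁.span_eq_top_of_card_eq_finrank' (by
          rw [Fintype.card_fin, Module.finrank_fintype_fun_eq_card]), Submodule.span_le]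
        rintro _ ⟨j, rfl⟩
        exact Submodule.span_le_restrictScalars (Zl ℓ) Qbar _ (hspanO _ (he₁O j))
      have h3 := finrank_range_le_card (R := Qbar) e
      rw [Set.finrank, htop, finrank_top, Module.finrank_fintype_fun_eq_card, Fintype.card_fin] at h3
      exact h3
  subst hk
  exact ⟨e, heO, hli, hspanO⟩

end

end Fermat.Agent.S19
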