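/-
S19, algebra side, package A4 (the maximal order and unramified base change; (H4) of the route note).
FROZEN STATEMENTS (helper107 skeleton).  Proof sketch (p-adic, uses the CFT bridge files of helper53's team,
`Fermat/Agent/S55/Bridge/{Places,Inertia,UnramB}.lean` -- copy the needed lemmas under S19 names if these
are not on main yet):
* `A = s • padicPlace ℓ` (`exists_smul_padicPlace_eq`); `j := padicEmbedding ℓ ∘ s⁻¹ : Qbar → Ω`
  (`Ω = PadicAlgCl ℓ`), `a ∈ A ↔ ‖j a‖ ≤ 1`; the local inertia group `I_ℓ` maps into the inertia group of `A`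
  (`map_localInertia`, `mem_inertiaSubgroupIn_smul_iff`), compatibly with `j`.
* `exists_pow_mul_inv_mem`: `‖j ℓ‖ < 1` and `‖j a‖ ≠ 0`.
* `pairing_mem_of_inertiaEquivariant`: let `e` be a `ℚ`-basis of the equivariant functions (a `Qbar`-basis of
  all functions, D1/D2), `g = ∑ c k • e k`, `c k = ∑ x, g x * e' k x` (D5) is fixed by inertia, so
  `j (c k) ∈ Ω^{I_ℓ} ⊆ ℚ_ℓ(ζ)` for a root of unity `ζ` of order prime to `ℓ` (Krull +
  `bub_mem_localInertia_of_fix`): `j (c k) = Q k (ζ)`, `Q k ∈ ℚ_ℓ[T]`, `deg < n = deg (minpoly ℚ_ℓ ζ)`.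
  For `x : X` the polynomial `F x := ∑ k, Q k * C (j (e k x))` has degree `< n` and takes values of norm `≤ 1`
  at the `n` conjugates of `ζ` (these values are `τ (j (g (ρ τ⁻¹ • x)))`), which are pairwise incongruent
  units (`bub_norm_sub_of_pow_eq_one`); so its coefficients have norm `≤ 1` (`bub_coeff_le_of_eval_le`).
  Approximating the coefficients `q k i ∈ ℚ_ℓ` of the `Q k` by rationals `r k` gives `∑ k, r k • e k ∈ O`, whence
  `‖∑ k, q k i * j (∑ x, b x * e k x)‖ ≤ 1` from `hbO`; finally `j (∑ x, b x * g x) = ∑ i, ζ ^ i * (...)`.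
* `mem_span_Rur_maxOrder`: apply the pairing statement to the dual family of the basis of `O` (O3, D5).
-/
import Fermat.Agent.S19.Alg.Order
import Fermat.Agent.S19.HFour227.H4

set_option autoImplicit false

namespace Fermat.Agent.S19

section

variable (ℓ : ℕ) [Fact ℓ.Prime] (X : Type) [AddCommGroup X] [DistribMulAction GQ X]

/-- The valuation of `A` has rank one: every nonzero algebraic number divides a power of `ℓ` in `A`. -/
theorem exists_pow_mul_inv_mem (A : ValuationSubring Qbar) (hA : A.LiesOverPrime ℓ) (a : Qbar)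
    (ha : a ≠ 0) : ∃ c : ℕ, (ℓ : Qbar) ^ c * a⁻¹ ∈ A :=
  HFour227.h4_rank_one ℓ A hA a ha

/-- Coordinates of an inertia-equivariant `A`-valued function in a `ℤ_(ℓ)`-basis of the maximal order
lie in `Rur` (helper227; from `HFour227.h4_coord`). -/
theorem exists_coord_of_inertiaEquivariant_h227 [Finite X] (hdisc : DiscreteActionOn X)
    (A : ValuationSubring Qbar) (hA : A.LiesOverPrime ℓ)
    (g : X → Qbar) (hg : InertiaEquivariantFun X A g) (hgA : ∀ x, g x ∈ A) :
    ∃ (e : Fin (Nat.card X) → X → Qbar) (c : Fin (Nat.card X) → Qbar),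
      (∀ j, e j ∈ maxOrder X A) ∧ (∀ j, c j ∈ Rur A) ∧ ∀ x, g x = ∑ j, c j * e j x := by
  classical
  have := Fintype.ofFinite X
  obtain ⟨e, heO, heL, hespan⟩ := exists_basis_maxOrder ℓ X hdisc A hA
  have htop : Submodule.span Qbar (Set.range e) = ⊤ := by
    apply LinearIndependent.span_eq_top_of_card_eq_finrank' heL
    rw [Module.finrank_fintype_fun_eq_card, Fintype.card_fin, Nat.card_eq_fintype_card]
  have hgspan : g ∈ Submodule.span Qbar (Set.range e) := by
    rw [htop]
    exact Submodule.mem_top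
  obtain ⟨c, hc⟩ := (Submodule.mem_span_range_iff_exists_fun Qbar).1 hgspan
  have hgx : ∀ x, g x = ∑ j, c j * e j x := by
    intro x
    rw [← hc]
    simp [Finset.sum_apply]
  have hO : ∀ q : Fin (Nat.card X) → ℚ, (∀ x, ∑ j, (q j : Qbar) * e j x ∈ A) →
      ∀ j, (q j : Qbar) ∈ A := by
    intro q hq j
    have hf : (fun x => ∑ j, (q j : Qbar) * e j x) ∈ maxOrder X A := by
      refine ⟨fun σ x => ?_, hq⟩
      show ∑ j, (q j : Qbar) * e j (σ • x) = σ (∑ j, (q j : Qbar) * e j x)
      rw [map_sum]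
      apply Finset.sum_congr rfl
      intro i _
      rw [map_mul, map_ratCast, (heO i).1 σ x]
    obtain ⟨r, hr⟩ := (Submodule.mem_span_range_iff_exists_fun (Zl ℓ)).1 (hespan _ hf)
    have h1 : ∑ i, (algebraMap (Zl ℓ) Qbar (r i) - (q i : Qbar)) • e i = 0 := by
      funext x
      have h2 := congrFun hr x
      simp only [Finset.sum_apply, Pi.smul_apply, smul_eq_mul, Pi.zero_apply] at h2 ⊢
      rw [← sub_eq_zero] at h2
      rw [← h2, ← Finset.sum_sub_distrib]
      apply Finset.sum_congr rfl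
      intro i _
      rw [Algebra.smul_def]
      ring
    have h3 := (Fintype.linearIndependent_iff.1 heL) _ h1 j
    rw [sub_eq_zero] at h3
    rw [← h3]
    exact algebraMap_Zl_mem ℓ A hA (r j)
  have key := HFour227.h4_coord ℓ A hA e heL (fun j => (heO j).1) (fun j => (heO j).2) hO c
    (fun σ hσ x => by rw [← hgx, ← hgx]; exact hg σ hσ x) (fun x => by rw [← hgx]; exact hgA x)
  exact ⟨e, c, heO, fun j => ⟨key.1 j, key.2 j⟩, hgx⟩

/-- (H4), dual form: an equivariant `b` which pairs the maximal order into `A` pairs every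
inertia-equivariant `A`-valued function into `A`. -/
theorem pairing_mem_of_inertiaEquivariant [Fintype X] (hdisc : DiscreteActionOn X)
    (A : ValuationSubring Qbar) (hA : A.LiesOverPrime ℓ)
    (b : X → Qbar) (hb : GalEquivariant X b) (hbO : ∀ f ∈ maxOrder X A, ∑ x, b x * f x ∈ A)
    (g : X → Qbar) (hg : InertiaEquivariantFun X A g) (hgA : ∀ x, g x ∈ A) :
    ∑ x, b x * g x ∈ A := by
  obtain ⟨e, c, heO, hc, hgx⟩ := exists_coord_of_inertiaEquivariant_h227 ℓ X hdisc A hA g hg hgA
  have h1 : ∑ x, b x * g x = ∑ j, c j * ∑ x, b x * e j x := by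
    simp only [hgx, Finset.mul_sum]
    rw [Finset.sum_comm]
    apply Finset.sum_congr rfl
    intro j _
    apply Finset.sum_congr rfl
    intro x _
    ring
  rw [h1]
  exact sum_mem fun j _ => mul_mem (hc j).1 (hbO (e j) (heO j))

/-- (H4), primal form: the inertia-equivariant `A`-valued functions are the `Rur`-span of the maximal order. -/
theorem mem_span_Rur_maxOrder [Finite X] (hdisc : DiscreteActionOn X)
    (A : ValuationSubring Qbar) (hA : A.LiesOverPrime ℓ)
    (g : X → Qbar) (hg : InertiaEquivariantFun X A g) (hgA : ∀ x, g x ∈ A) :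
    g ∈ Submodule.span ↥(Rur A) (maxOrder X A) := by
  obtain ⟨e, c, heO, hc, hgx⟩ := exists_coord_of_inertiaEquivariant_h227 ℓ X hdisc A hA g hg hgA
  have h1 : g = ∑ j, (⟨c j, hc j⟩ : ↥(Rur A)) • e j := by
    funext x
    rw [hgx x, Finset.sum_apply]
    apply Finset.sum_congr rfl
    intro j _
    rfl
  rw [h1]
  exact Submodule.sum_mem _ fun j _ => Submodule.smul_mem _ _ (Submodule.subset_span (heO j))

end

end Fermat.Agent.S19
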