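/-
S19, algebra side, package A3c: the geometric core makes the Hopf order of full rank ((H3) of the route
note).  FROZEN STATEMENT (helper107 skeleton); proof by helper1136.  Proof:
* `e` := basis of `O` (O3), `e'` := its dual family (D5).
* `Y := {f ∈ N | GalEquivariant f}` is an `O`-subcomodule of `O`: for `f ∈ Y`,
  `f (x + y) = ∑ i, g i x * h i y` (`comul`), so `f (x + y) = ∑ j, e j x * n j y` with
  `n j := ∑ i, (∑ x, e' j x * g i x) • h i`; the coefficient `∑ x, e' j x * g i x` is in `Rur A` by (H4) dual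
  (`pairing_mem_of_inertiaEquivariant`), so `n j ∈ N`; and `n j y = ∑ x, e' j x * f (x + y)` is equivariant.
  Hence `Y ≤ H` (L1').
* `ℓ ^ c • e j ∈ N` for some `c`: choose a `Qbar`-basis `B` of all functions inside `N` (`spanning`);
  the coordinates of `e j` in `B` are fixed by inertia (uniqueness of coordinates), and a power of `ℓ`
  clears their denominators (`exists_pow_mul_inv_mem`).  (The primal form of (H4) is not needed.)
-/
import Fermat.Agent.S19.Alg.HFour
import Fermat.Agent.S19.Alg.HopfOrder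

set_option autoImplicit false
set_option linter.unusedSectionVars false

namespace Fermat.Agent.S19

namespace Full1136

section

variable {ℓ : ℕ} [Fact ℓ.Prime] {X : Type} [AddCommGroup X] [DistribMulAction GQ X]
  {A : ValuationSubring Qbar} {N : Set (X → Qbar)}

/-- Rational scalars are fixed by the Galois group. -/
theorem map_algebraMap_Zl (σ : GQ) (r : Zl ℓ) :
    σ (algebraMap (Zl ℓ) Qbar r) = algebraMap (Zl ℓ) Qbar r := by
  show σ (algebraMap ℚ Qbar (r : ℚ)) = algebraMap ℚ Qbar (r : ℚ)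
  exact σ.commutes _

theorem smul_eq_fun (r : Zl ℓ) (f : X → Qbar) :
    r • f = fun x => algebraMap (Zl ℓ) Qbar r * f x := by
  funext x
  rw [Pi.smul_apply, Algebra.smul_def]

theorem natCast_mem (hA : A.LiesOverPrime ℓ) : (ℓ : Qbar) ∈ A :=
  (ValuationSubring.mem_nonunits_iff_exists_mem_maximalIdeal.mp
    (show ((ℓ : ℕ) : Qbar) ∈ A.nonunits from hA)).1

theorem zl_smul_mem (hA : A.LiesOverPrime ℓ) (hN : CoalgLatticeOn X A N) (r : Zl ℓ)
    {f : X → Qbar} (hf : f ∈ N) : r • f ∈ N := by
  rw [smul_eq_fun]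
  exact hN.smul_mem _ (algebraMap_Zl_mem ℓ A hA r) (fun σ _ => map_algebraMap_Zl σ r) f hf

/-- `N` is closed under finite `Rur`-linear combinations. -/
theorem sum_mul_mem (hN : CoalgLatticeOn X A N) {ι : Type} (s : Finset ι) (a : ι → Qbar)
    (g : ι → X → Qbar)
    (ha : ∀ i ∈ s, a i ∈ A ∧ ∀ σ ∈ A.inertiaSubgroupIn ℚ, σ (a i) = a i)
    (hg : ∀ i ∈ s, g i ∈ N) : (fun x => ∑ i ∈ s, a i * g i x) ∈ N := by
  classical
  induction s using Finset.induction_on with
  | empty =>
    have h0 : (fun x : X => ∑ i ∈ (∅ : Finset ι), a i * g i x) = 0 := by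
      funext x; simp
    rw [h0]; exact hN.zero_mem
  | insert i s hi ih =>
    have h1 : (fun x => ∑ j ∈ insert i s, a j * g j x) =
        (fun x => a i * g i x) + (fun x => ∑ j ∈ s, a j * g j x) := by
      funext x; simp [Finset.sum_insert hi]
    rw [h1]
    have hi' := Finset.mem_insert_self i s
    exact hN.add_mem _ (hN.smul_mem _ (ha i hi').1 (ha i hi').2 _ (hg i hi')) _
      (ih (fun j hj => ha j (Finset.mem_insert_of_mem hj))
        (fun j hj => hg j (Finset.mem_insert_of_mem hj)))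

/-- The Galois-equivariant elements of `N` form a `ℤ_(ℓ)`-submodule. -/
def galPart (hA : A.LiesOverPrime ℓ) (hN : CoalgLatticeOn X A N) :
    Submodule (Zl ℓ) (X → Qbar) where
  carrier := {f | f ∈ N ∧ GalEquivariant X f}
  add_mem' := fun {f g} hf hg => ⟨hN.add_mem f hf.1 g hg.1, fun σ x => by
    rw [Pi.add_apply, Pi.add_apply, map_add, hf.2 σ x, hg.2 σ x]⟩
  zero_mem' := ⟨hN.zero_mem, fun σ x => by simp⟩
  smul_mem' := fun r f hf => ⟨zl_smul_mem hA hN r hf.1, fun σ x => by
    rw [smul_eq_fun]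
    show algebraMap (Zl ℓ) Qbar r * f (σ • x) = σ (algebraMap (Zl ℓ) Qbar r * f x)
    rw [hf.2 σ x, map_mul, map_algebraMap_Zl]⟩

theorem mem_galPart (hA : A.LiesOverPrime ℓ) (hN : CoalgLatticeOn X A N) (f : X → Qbar) :
    f ∈ galPart hA hN ↔ f ∈ N ∧ GalEquivariant X f := Iff.rfl

/-- Reindexing a sum over `X` by the action of a Galois element. -/
theorem sum_smul_comp [Fintype X] (σ : GQ) (F : X → Qbar) :
    ∑ x, F (σ • x) = ∑ x, F x :=
  Equiv.sum_comp (MulAction.toPerm σ) F

end

section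

variable (ℓ : ℕ) [Fact ℓ.Prime] (X : Type) [AddCommGroup X] [DistribMulAction GQ X]

/-- The comodule property of the Galois part of `N`. -/
theorem isOrderComodule_galPart [Fintype X] [DecidableEq X] (hdisc : DiscreteActionOn X)
    (A : ValuationSubring Qbar) (hA : A.LiesOverPrime ℓ) (N : Set (X → Qbar))
    (hN : CoalgLatticeOn X A N)
    (e : Fin (Fintype.card X) → X → Qbar) (heO : ∀ j, e j ∈ maxOrder X A)
    (heL : LinearIndependent Qbar e)
    (heS : ∀ f ∈ maxOrder X A, f ∈ Submodule.span (Zl ℓ) (Set.range e)) :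
    IsOrderComodule X ℓ A (galPart hA hN) := by
  obtain ⟨e', he'G, he'1, he'2⟩ := exists_dual_family X e (fun j => (heO j).1) heL
  -- the dual family pairs the maximal order into `A`
  have hpair : ∀ k, ∀ f ∈ maxOrder X A, ∑ x, e' k x * f x ∈ A := by
    intro k f hf
    obtain ⟨r, rfl⟩ := (Submodule.mem_span_range_iff_exists_fun (Zl ℓ)).mp (heS f hf)
    have h1 : ∑ x, e' k x * (∑ j, r j • e j) x = algebraMap (Zl ℓ) Qbar (r k) := by
      have h2 : ∀ x, e' k x * (∑ j, r j • e j) x =
          ∑ j, algebraMap (Zl ℓ) Qbar (r j) * (e j x * e' k x) := by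
        intro x
        rw [Finset.sum_apply, Finset.mul_sum]
        refine Finset.sum_congr rfl fun j _ => ?_
        rw [Pi.smul_apply, Algebra.smul_def]; ring
      rw [Finset.sum_congr rfl fun x _ => h2 x, Finset.sum_comm]
      have h3 : ∀ j, ∑ x, algebraMap (Zl ℓ) Qbar (r j) * (e j x * e' k x) =
          if j = k then algebraMap (Zl ℓ) Qbar (r j) else 0 := by
        intro j
        rw [← Finset.mul_sum, he'1 j k]
        split_ifs <;> simp
      rw [Finset.sum_congr rfl fun j _ => h3 j, Finset.sum_ite_eq' Finset.univ k]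
      simp
    rw [h1]
    exact algebraMap_Zl_mem ℓ A hA (r k)
  refine ⟨fun f hf => ⟨hf.2, fun x => hN.integral f hf.1 x⟩, fun f hf => ?_⟩
  obtain ⟨n, g, h, hg, hh, hfgh⟩ := hN.comul f hf.1
  -- the coefficient functions
  set nfun : Fin (Fintype.card X) → X → Qbar := fun j y => ∑ x, e' j x * f (x + y) with hnfun
  refine ⟨Fintype.card X, e, nfun, heO, fun j => ⟨?_, ?_⟩, fun x y => ?_⟩
  · -- `nfun j ∈ N`
    have h1 : nfun j = fun y => ∑ i ∈ (Finset.univ : Finset (Fin n)),
        (∑ x, e' j x * g i x) * h i y := by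
      funext y
      rw [hnfun]
      simp only
      rw [Finset.sum_congr rfl fun x _ => by rw [hfgh x y, Finset.mul_sum], Finset.sum_comm]
      refine Finset.sum_congr rfl fun i _ => ?_
      rw [Finset.sum_mul]
      refine Finset.sum_congr rfl fun x _ => ?_
      ring
    rw [h1]
    refine sum_mul_mem hN _ _ _ (fun i _ => ⟨?_, fun σ hσ => ?_⟩) (fun i _ => hh i)
    · exact pairing_mem_of_inertiaEquivariant ℓ X hdisc A hA (e' j) (he'G j) (hpair j) (g i)
        (hN.equivariant (g i) (hg i)) (hN.integral (g i) (hg i))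
    · rw [map_sum]
      rw [← sum_smul_comp σ (fun x => e' j x * g i x)]
      refine Finset.sum_congr rfl fun x _ => ?_
      rw [map_mul, he'G j σ x, hN.equivariant (g i) (hg i) σ hσ x]
  · -- `nfun j` is Galois-equivariant
    intro σ y
    rw [hnfun]
    simp only
    rw [map_sum, ← sum_smul_comp σ (fun x => e' j x * f (x + σ • y))]
    refine Finset.sum_congr rfl fun x _ => ?_
    rw [map_mul, he'G j σ x, ← smul_add, hf.2 σ (x + y)]
  · -- the expansion
    rw [hnfun]
    simp only
    have h1 : ∀ j, e j x * ∑ x', e' j x' * f (x' + y) =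
        ∑ x', (e j x * e' j x') * f (x' + y) := by
      intro j
      rw [Finset.mul_sum]
      refine Finset.sum_congr rfl fun x' _ => ?_
      ring
    rw [Finset.sum_congr rfl fun j _ => h1 j, Finset.sum_comm]
    have h2 : ∀ x', ∑ j, (e j x * e' j x') * f (x' + y) =
        if x = x' then f (x' + y) else 0 := by
      intro x'
      rw [← Finset.sum_mul, he'2 x x']
      split_ifs <;> simp
    rw [Finset.sum_congr rfl fun x' _ => h2 x', Finset.sum_ite_eq Finset.univ x]
    simp

/-- A power of `ℓ` times the maximal order lies in the Galois part of `N`. -/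
theorem exists_pow_smul_mem_galPart [Fintype X] [DecidableEq X]
    (A : ValuationSubring Qbar) (hA : A.LiesOverPrime ℓ) (N : Set (X → Qbar))
    (hN : CoalgLatticeOn X A N)
    (e : Fin (Fintype.card X) → X → Qbar) (heO : ∀ j, e j ∈ maxOrder X A)
    (heS : ∀ f ∈ maxOrder X A, f ∈ Submodule.span (Zl ℓ) (Set.range e)) :
    ∃ c : ℕ, ∀ f ∈ maxOrder X A, (fun x => (ℓ : Qbar) ^ c * f x) ∈ galPart hA hN := by
  -- a `Qbar`-basis of all functions inside `N`
  let B := Module.Basis.ofSpan (K := Qbar) (s := N) hN.spanning.ge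
  let _ : Fintype ((linearIndepOn_empty Qbar id).extend (Set.empty_subset N)) :=
    FiniteDimensional.fintypeBasisIndex B
  have hBN : ∀ i, B i ∈ N := fun i => Module.Basis.ofSpan_subset hN.spanning.ge ⟨i, rfl⟩
  -- the coordinates of an inertia-equivariant function are fixed by inertia
  have hfix : ∀ f : X → Qbar, InertiaEquivariantFun X A f →
      ∀ σ ∈ A.inertiaSubgroupIn ℚ, ∀ i, σ (B.repr f i) = B.repr f i := by
    intro f hf σ hσ i
    have h1 : (∑ i, σ (B.repr f i) • B i) = f := by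
      funext y
      obtain ⟨x, rfl⟩ : ∃ x, σ • x = y := ⟨σ⁻¹ • y, by rw [smul_inv_smul]⟩
      rw [hf σ hσ x]
      conv_rhs => rw [← B.sum_repr f]
      rw [Finset.sum_apply, Finset.sum_apply, map_sum]
      refine Finset.sum_congr rfl fun i _ => ?_
      rw [Pi.smul_apply, Pi.smul_apply, smul_eq_mul, smul_eq_mul, map_mul,
        ← hN.equivariant (B i) (hBN i) σ hσ x]
    have h2 := congrArg (fun v => B.repr v i) h1
    simp only [Module.Basis.repr_sum_self] at h2
    exact h2
  -- clearing denominators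
  have hpow : ∀ a : Qbar, ∃ m : ℕ, ∀ m', m ≤ m' → (ℓ : Qbar) ^ m' * a ∈ A := by
    intro a
    by_cases ha : a = 0
    · exact ⟨0, fun m' _ => by rw [ha, mul_zero]; exact A.zero_mem⟩
    · obtain ⟨m, hm⟩ := exists_pow_mul_inv_mem ℓ A hA a⁻¹ (inv_ne_zero ha)
      rw [inv_inv] at hm
      refine ⟨m, fun m' hm' => ?_⟩
      obtain ⟨k, rfl⟩ := Nat.exists_eq_add_of_le hm'
      rw [pow_add, mul_comm ((ℓ : Qbar) ^ m), mul_assoc]
      exact A.mul_mem _ _ (A.pow_mem (natCast_mem hA) k) hm
  choose m hm using hpow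
  let c : ℕ := ∑ j, ∑ i, m (B.repr (e j) i)
  have hc : ∀ j i, (ℓ : Qbar) ^ c * B.repr (e j) i ∈ A := by
    intro j i
    apply hm
    calc m (B.repr (e j) i) ≤ ∑ i, m (B.repr (e j) i) :=
          Finset.single_le_sum (f := fun i => m (B.repr (e j) i)) (fun _ _ => Nat.zero_le _)
            (Finset.mem_univ i)
      _ ≤ c := Finset.single_le_sum (f := fun j => ∑ i, m (B.repr (e j) i))
            (fun _ _ => Nat.zero_le _) (Finset.mem_univ j)
  have he : ∀ j, (fun x => (ℓ : Qbar) ^ c * e j x) ∈ N := by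
    intro j
    have h1 : (fun x => (ℓ : Qbar) ^ c * e j x) =
        fun x => ∑ i ∈ Finset.univ, ((ℓ : Qbar) ^ c * B.repr (e j) i) * B i x := by
      funext x
      conv_lhs => rw [← B.sum_repr (e j)]
      rw [Finset.sum_apply, Finset.mul_sum]
      refine Finset.sum_congr rfl fun i _ => ?_
      rw [Pi.smul_apply, smul_eq_mul, mul_assoc]
    rw [h1]
    refine sum_mul_mem hN _ _ _ (fun i _ => ⟨hc j i, fun σ hσ => ?_⟩) (fun i _ => hBN i)
    rw [map_mul, map_pow, map_natCast, hfix (e j) (fun τ _ x => (heO j).1 τ x) σ hσ i]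
  refine ⟨c, fun f hf => ⟨?_, ?_⟩⟩
  · obtain ⟨r, rfl⟩ := (Submodule.mem_span_range_iff_exists_fun (Zl ℓ)).mp (heS f hf)
    have h1 : (fun x => (ℓ : Qbar) ^ c * (∑ j, r j • e j) x) =
        fun x => ∑ j ∈ Finset.univ,
          algebraMap (Zl ℓ) Qbar (r j) * (fun x => (ℓ : Qbar) ^ c * e j x) x := by
      funext x
      rw [Finset.sum_apply, Finset.mul_sum]
      refine Finset.sum_congr rfl fun j _ => ?_
      rw [Pi.smul_apply, Algebra.smul_def]; ring
    rw [h1]
    exact sum_mul_mem hN _ _ _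
      (fun j _ => ⟨algebraMap_Zl_mem ℓ A hA (r j), fun σ _ => map_algebraMap_Zl σ (r j)⟩)
      (fun j _ => he j)
  · intro σ x
    show (ℓ : Qbar) ^ c * f (σ • x) = σ ((ℓ : Qbar) ^ c * f x)
    rw [hf.1 σ x, map_mul, map_pow, map_natCast]

end

end Full1136

section

variable (ℓ : ℕ) [Fact ℓ.Prime] (X : Type) [AddCommGroup X] [DistribMulAction GQ X]

/-- L6. -/
theorem exists_pow_smul_mem_hopfOrder [Finite X] (hdisc : DiscreteActionOn X)
    (A : ValuationSubring Qbar) (hA : A.LiesOverPrime ℓ) (N : Set (X → Qbar))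
    (hN : CoalgLatticeOn X A N) :
    ∃ c : ℕ, ∀ f ∈ maxOrder X A, (fun x => (ℓ : Qbar) ^ c * f x) ∈ hopfOrder X ℓ A := by
  classical
  let _ : Fintype X := Fintype.ofFinite X
  obtain ⟨e0, he0O, he0L, he0S⟩ := exists_basis_maxOrder ℓ X hdisc A hA
  have hcard : Fintype.card X = Nat.card X := Nat.card_eq_fintype_card.symm
  let e : Fin (Fintype.card X) → X → Qbar := fun j => e0 (Fin.cast hcard j)
  have heO : ∀ j, e j ∈ maxOrder X A := fun j => he0O _
  have heL : LinearIndependent Qbar e := he0L.comp _ (Fin.cast_injective hcard)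
  have heS : ∀ f ∈ maxOrder X A, f ∈ Submodule.span (Zl ℓ) (Set.range e) := by
    have hr : Set.range e = Set.range e0 := by
      ext f; constructor
      · rintro ⟨j, rfl⟩; exact ⟨_, rfl⟩
      · rintro ⟨j, rfl⟩; exact ⟨Fin.cast hcard.symm j, by simp [e]⟩
    rw [hr]; exact he0S
  obtain ⟨c, hc⟩ := Full1136.exists_pow_smul_mem_galPart ℓ X A hA N hN e heO heS
  have hle := le_hopfOrder_of_isOrderComodule ℓ X A _
    (Full1136.isOrderComodule_galPart ℓ X hdisc A hA N hN e heO heL heS)
  exact ⟨c, fun f hf => hle (hc f hf)⟩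

end

end Fermat.Agent.S19
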