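/-
S19, algebra side, package A5: a function order closed under comultiplication, counit and antipode is a
Hopf algebra whose points are `X`.  FROZEN STATEMENT (helper107 skeleton).  Proof:
* `μ : H ⊗ H → (X × X → Qbar)`, `f ⊗ g ↦ fun p => f p.1 * g p.2` is injective (the `b i ⊗ b j` go to
  `Qbar`-independent functions); same for three factors.
* `comul f` := the preimage under `μ` of `fun p => f (p.1 + p.2)` (`hcomul`), `counit f` := the preimage of
  `f 0` (`hcounit`), `antipode f := f ∘ neg` (`hanti`).  All Hopf axioms are checked after applying the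
  injective maps `μ`, pointwise.  Use `Bialgebra.mk'` / `Bialgebra.ofAlgHom` with the subalgebra's `Algebra`.
* finite + flat: free with basis `b`.
* points: `x ↦ (f ↦ f x)`; injective because `b` spans all functions over `Qbar` (`#X` independent
  functions); surjective because an algebra map `φ : H → Qbar` extends `Qbar`-linearly to a `Qbar`-algebra
  map `(X → Qbar) → Qbar`, which is an evaluation.  `convMul_apply` + `μ` give `ev x * ev y = ev (x + y)`.
* equivariance: `f (e g) = σ (f (e f))= f (σ • e f)` for all `f ∈ H` (`hgal`), and `H` separates points.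
-/
import Fermat.Agent.S19.Alg.Basic
import Fermat.Agent.S19.FunHopf1452.Basis

set_option autoImplicit false

namespace Fermat.Agent.S19

section

/-- A5. -/
theorem exists_hopf_of_funOrder (ℓ : ℕ) [Fact ℓ.Prime] (X : Type) [AddCommGroup X] [Finite X]
    [DistribMulAction GQ X] (H : Subalgebra (Zl ℓ) (X → Qbar))
    (hgal : ∀ f ∈ H, GalEquivariant X f)
    (b : Fin (Nat.card X) → X → Qbar) (hbH : ∀ i, b i ∈ H) (hbL : LinearIndependent Qbar b)
    (hbR : ∀ f ∈ H, f ∈ Submodule.span (Zl ℓ) (Set.range b))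
    (hcomul : ∀ f ∈ H, ComulIn X (H : Set (X → Qbar)) (H : Set (X → Qbar)) f)
    (hcounit : ∀ f ∈ H, f 0 ∈ Set.range (algebraMap (Zl ℓ) Qbar))
    (hanti : ∀ f ∈ H, (fun x => f (-x)) ∈ H) :
    ∃ (Hh : Type) (_ : CommRing Hh) (_ : HopfAlgebra (GaloisRep.ratLocalizedAt ℓ) Hh),
      Module.Finite (GaloisRep.ratLocalizedAt ℓ) Hh ∧ Module.Flat (GaloisRep.ratLocalizedAt ℓ) Hh ∧
      Coalgebra.IsCocomm (GaloisRep.ratLocalizedAt ℓ) Hh ∧
      ∃ e : WithConv (Hh →ₐ[GaloisRep.ratLocalizedAt ℓ] AlgebraicClosure ℚ) ≃ X,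
        (∀ f g, e (f * g) = e f + e g) ∧
        ∀ (σ : AlgebraicClosure ℚ ≃ₐ[ℚ] AlgebraicClosure ℚ)
          (f g : WithConv (Hh →ₐ[GaloisRep.ratLocalizedAt ℓ] AlgebraicClosure ℚ)),
          (∀ h : Hh, g h = σ (f h)) → e g = σ • e f := by
  have _ := hanti
  have hinj : Function.Injective (algebraMap (Zl ℓ) Qbar) := by
    have : (algebraMap (Zl ℓ) Qbar)
        = (algebraMap ℚ Qbar).comp (GaloisRep.ratLocalizedAt ℓ).subtype := rfl
    rw [this]
    exact (algebraMap ℚ Qbar).injective.comp Subtype.val_injective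
  obtain ⟨Hh, i1, i2, hfin, hflat, hcocomm, j, e, hjH, hsep, hmul, hev⟩ :=
    FunHopf1452.exists_hopf_of_family H hinj b hbH hbL hbR hcomul hcounit
  refine ⟨Hh, i1, i2, hfin, hflat, hcocomm, e, hmul, ?_⟩
  intro σ f g hfg
  refine hsep _ _ fun h => ?_
  have h1 : j h (e g) = g h := (hev g h).symm
  have h2 : j h (e f) = f h := (hev f h).symm
  rw [h1, hfg h, ← h2]
  exact (hgal (j h) (hjH h) σ (e f)).symm

end

end Fermat.Agent.S19
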