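/-
S19, algebra side, package A3d: a full-rank Hopf order has a basis.  FROZEN STATEMENT (helper107 skeleton).
Proof: `H ≤ O = span e` (O3) is a submodule of a finite free module over the PID `ℤ_(ℓ)`, so it is free
(`Submodule.basisOfPidOfLESpan`); its rank is `#X` because `ℓ ^ c • e j ∈ H` (so the `Qbar`-span of a basis of
`H` is everything, rank at least `#X`) and because `H` sits inside the free module `span e` of rank `#X`;
`#X` spanning vectors of the `#X`-dimensional space of all functions are `Qbar`-independent.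
-/
import Fermat.Agent.S19.Alg.Order
import Fermat.Agent.S19.Alg.HopfOrder
import Fermat.Agent.S28.QRed.Base

set_option autoImplicit false

namespace Fermat.Agent.S19

namespace HBasis1872

/-- `ℤ_(ℓ)` is a principal ideal domain. -/
theorem isPrincipalIdealRing_Zl (ℓ : ℕ) [Fact ℓ.Prime] : IsPrincipalIdealRing (Zl ℓ) := by
  have hprime : (Ideal.span {(ℓ : ℤ)}).IsPrime := by
    rw [Ideal.span_singleton_prime (by exact_mod_cast (Fact.out : ℓ.Prime).ne_zero)]
    exact Nat.prime_iff_prime_int.mp Fact.out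
  have hne : Ideal.span {(ℓ : ℤ)} ≠ ⊥ := by
    rw [Ne, Ideal.span_singleton_eq_bot]
    exact_mod_cast (Fact.out : ℓ.Prime).ne_zero
  have h1 : IsLocalization.AtPrime (Zl ℓ) (Ideal.span {(ℓ : ℤ)}) :=
    Fermat.Agent.S28.QRed.isLocalization_ratLoc ℓ
  have h2 : IsDiscreteValuationRing (Zl ℓ) :=
    IsLocalization.AtPrime.isDiscreteValuationRing_of_dedekind_domain ℤ hne (Zl ℓ)
  infer_instance

/-- The structure map `ℤ_(ℓ) → Qbar` is injective. -/
theorem algebraMap_injective (ℓ : ℕ) : Function.Injective (algebraMap (Zl ℓ) Qbar) := by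
  intro r s h
  have h' : algebraMap ℚ Qbar (r : ℚ) = algebraMap ℚ Qbar (s : ℚ) := h
  exact Subtype.ext ((algebraMap ℚ Qbar).injective h')

end HBasis1872

section

variable (ℓ : ℕ) [Fact ℓ.Prime] (X : Type) [AddCommGroup X] [DistribMulAction GQ X]

/-- L7. -/
theorem exists_basis_hopfOrder [Finite X] (hdisc : DiscreteActionOn X)
    (A : ValuationSubring Qbar) (hA : A.LiesOverPrime ℓ) (c : ℕ)
    (hc : ∀ f ∈ maxOrder X A, (fun x => (ℓ : Qbar) ^ c * f x) ∈ hopfOrder X ℓ A) :
    ∃ b : Fin (Nat.card X) → X → Qbar, (∀ i, b i ∈ hopfOrder X ℓ A) ∧ LinearIndependent Qbar b ∧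
      ∀ f ∈ hopfOrder X ℓ A, f ∈ Submodule.span (Zl ℓ) (Set.range b) := by
  classical
  have : Fintype X := Fintype.ofFinite X
  have : IsPrincipalIdealRing (Zl ℓ) := HBasis1872.isPrincipalIdealRing_Zl ℓ
  obtain ⟨e, he_mem, he_li, he_span⟩ := exists_basis_maxOrder ℓ X hdisc A hA
  -- `e` is `ℤ_(ℓ)`-linearly independent
  have he_liZ : LinearIndependent (Zl ℓ) e := by
    rw [linearIndependent_iff']
    intro s g hg i hi
    have h1 := linearIndependent_iff'.mp he_li s (fun i => algebraMap (Zl ℓ) Qbar (g i)) (by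
      simpa only [algebraMap_smul] using hg) i hi
    exact HBasis1872.algebraMap_injective ℓ (by rw [h1, map_zero])
  -- `H ≤ span e`
  have hle : hopfOrder X ℓ A ≤ Submodule.span (Zl ℓ) (Set.range e) := fun f hf =>
    he_span f ((isOrderComodule_hopfOrder ℓ X A).1 f hf)
  obtain ⟨m, bH⟩ := Submodule.basisOfPidOfLESpan he_liZ hle
  have hcard : Fintype.card (Fin (Nat.card X)) = Module.finrank Qbar (X → Qbar) := by
    rw [Fintype.card_fin, Module.finrank_fintype_fun_eq_card, Nat.card_eq_fintype_card]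
  -- the `Qbar`-span of `e` is everything
  have he_top : Submodule.span Qbar (Set.range e) = ⊤ :=
    he_li.span_eq_top_of_card_eq_finrank' hcard
  -- the `Qbar`-span of the basis of `H` is everything
  have hZQ : ∀ f ∈ hopfOrder X ℓ A,
      f ∈ Submodule.span Qbar (Set.range fun i => ((bH i : hopfOrder X ℓ A) : X → Qbar)) := by
    intro f hf
    have h1 : (⟨f, hf⟩ : hopfOrder X ℓ A) ∈ Submodule.span (Zl ℓ) (Set.range bH) := by
      rw [bH.span_eq]; trivial
    have h2 := Submodule.mem_map_of_mem (f := (hopfOrder X ℓ A).subtype) h1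
    rw [Submodule.map_span, ← Set.range_comp] at h2
    exact Submodule.span_subset_span (Zl ℓ) Qbar _ h2
  have hℓ : (ℓ : Qbar) ^ c ≠ 0 :=
    pow_ne_zero _ (Nat.cast_ne_zero.mpr (Fact.out : ℓ.Prime).ne_zero)
  have hb_top : ⊤ ≤ Submodule.span Qbar
      (Set.range fun i => ((bH i : hopfOrder X ℓ A) : X → Qbar)) := by
    rw [← he_top, Submodule.span_le]
    rintro _ ⟨j, rfl⟩
    have h1 := hZQ _ (hc (e j) (he_mem j))
    have h2 := Submodule.smul_mem _ ((ℓ : Qbar) ^ c)⁻¹ h1
    have h3 : ((ℓ : Qbar) ^ c)⁻¹ • (fun x => (ℓ : Qbar) ^ c * e j x) = e j := by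
      funext x
      simp only [Pi.smul_apply, smul_eq_mul]
      rw [← mul_assoc, inv_mul_cancel₀ hℓ, one_mul]
    rw [h3] at h2
    exact h2
  -- the rank of `H` is `#X`
  have hm : m = Nat.card X := by
    apply le_antisymm
    · have hv : LinearIndependent (Zl ℓ)
          (fun i => (⟨(bH i : X → Qbar), hle (bH i).2⟩ : Submodule.span (Zl ℓ) (Set.range e))) := by
        apply LinearIndependent.of_comp (Submodule.span (Zl ℓ) (Set.range e)).subtype
        exact bH.linearIndependent.map' (hopfOrder X ℓ A).subtype (Submodule.ker_subtype _)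
      have := (Module.Basis.span he_liZ).card_le_card_of_linearIndependent hv
      simpa using this
    · have h1 := finrank_range_le_card (R := Qbar)
        (fun i => ((bH i : hopfOrder X ℓ A) : X → Qbar))
      rw [Set.finrank, top_le_iff.mp hb_top, finrank_top, ← hcard] at h1
      simpa using h1
  subst hm
  refine ⟨fun i => ((bH i : hopfOrder X ℓ A) : X → Qbar), fun i => (bH i).2, ?_, ?_⟩
  · exact linearIndependent_of_top_le_span_of_card_eq_finrank hb_top hcard
  · intro f hf
    have h1 : (⟨f, hf⟩ : hopfOrder X ℓ A) ∈ Submodule.span (Zl ℓ) (Set.range bH) := by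
      rw [bH.span_eq]; trivial
    have h2 := Submodule.mem_map_of_mem (f := (hopfOrder X ℓ A).subtype) h1
    rw [Submodule.map_span, ← Set.range_comp] at h2
    exact h2

end

end Fermat.Agent.S19
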